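import Fermat.Agent.LT2.Period.Unfold
import Fermat.Agent.LT.Period.Main

/-!
# A nonvanishing period at deep level

A cuspidal eigenform of deep level with the eigenvalues of a lift of a surjection onto
`GL₂(𝔽₃)` gives a flat vector whose periods along the hyperbolic plane do not vanish.
-/

set_option autoImplicit false

noncomputable section

open Matrix IsDedekindDomain NumberField Filter MeasureTheory UpperHalfPlane
open FermatAgent.LT FermatAgent.LT.Whit
open scoped MatrixGroups Topology ContDiff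

namespace FermatAgent.LT2.Period

open FermatAgent.LT2.Whit (IsGood IsForm)
open FermatAgent.GaloisBasic (Qbar)
open FermatAgent.LT.Period (IsEis HasTraces exists_series_ge summable_term exists_strip_ge
  periodSum_ne_zero_of_growth exists_bad_traces badProd badProd_pos dvd_badProd periodSum
  GL3 IsGaloisTraces HasExcess wt3 placesOver mem_over place natU natU_val val_intCast_le)

variable {K : Type*} [Field K] [NumberField K] [IsTotallyComplex K] {θ : K}
  {S : Finset (HeightOneSpectrum (𝓞 K))} {c : HeightOneSpectrum (𝓞 K) → ℂ}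
  {f : InfPts K → adelGrp K → ℂ} {bad : Finset ℕ} {wt : ℕ → ℝ} {M : ℕ}

/-- Entries of `Γ₀(Nl)` are divisible by `N²` when `N² ∣ Nl`. -/
lemma Gamma0_dvd {N Nl : ℕ} (hNl : N ^ 2 ∣ Nl) {g : SL(2, ℤ)}
    (hg : g ∈ CongruenceSubgroup.Gamma0 Nl) : ((N : ℕ) : ℤ) ^ 2 ∣ g.1 1 0 := by
  rw [CongruenceSubgroup.Gamma0_mem, ZMod.intCast_zmod_eq_zero_iff_dvd] at hg
  exact (by exact_mod_cast Int.natCast_dvd_natCast.2 hNl : ((N : ℤ) ^ 2) ∣ (Nl : ℤ)).trans hg

variable (hE : IsEis θ) (hM : 1 ≤ M) (hf : IsGood S c f) (hS : ∀ w ∈ S, IsFlat M w f) (hne : f ≠ 0)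
  (hT : HasTraces S c bad wt)

include hE hM hf hS hne hT in
/-- The periods of a flat eigenform with prescribed traces of excess weight do not vanish. -/
theorem periodSum_ne_zero {Nl : ℕ} [NeZero Nl] (hNl : (badProd bad ^ M) ^ 2 ∣ Nl)
    (hd : HasExcess bad wt) :
    periodSum Nl (cyc hE (badProd bad ^ M) f) ≠ 0 := by
  refine periodSum_ne_zero_of_growth ?_ (continuous_cycle hE hf _)
    (fun g hg z => cycle_smul hE hM hf hS hT (Gamma0_dvd hNl hg) z)
    (exists_cycle_decay hE hf _)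
    (exists_strip_ge (W_base_ne hM hf hS hne) (continuousOn_prof hE hf)
      (fun u hu => (prof_spec hE hM hf hS hne hu).1) (exists_prof_le hE hM hf hS hne)
      (continuous_cycle hE hf (badProd bad ^ M)) (exists_cycle_decay hE hf (badProd bad ^ M))
      (fun y hy => (hasSum_cycle_mean hE hM hf hS hT hne hy).2)
      (fun s hs hs2 => (summable_term hE (exists_sq_bound hE hM hf hS hne) hT hs hs2).1))
    (exists_series_ge hE (exists_sq_bound hE hM hf hS hne) hT) hd
  have h3 : 3 ∣ (badProd bad ^ M) ^ 2 :=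
    dvd_pow (dvd_pow (dvd_badProd Nat.prime_three hT.three) (by omega)) two_ne_zero
  have := Nat.le_of_dvd (Nat.pos_of_neZero Nl) (h3.trans hNl)
  omega

/-- A cuspidal eigenform `φ` of level `N = badProd bad ^ M` at the places of `S'`, decaying in the
cusps, whose restriction to the hyperbolic plane shifted by `N / θ` has the congruence invariance
and nonvanishing periods at all deeper levels. -/
structure IsPeriodVector (hE : IsEis θ) (S' : Finset (HeightOneSpectrum (𝓞 K)))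
    (c : HeightOneSpectrum (𝓞 K) → ℂ) (bad : Finset ℕ) (M : ℕ)
    (φ : InfPts K → adelGrp K → ℂ) : Prop where
  ne_zero : φ ≠ 0
  good : IsGood S' c φ
  decay : ∀ a : adelGrp K, ∃ C κ : ℝ, 0 ≤ C ∧ 0 < κ ∧ ∀ y : InfPts K, 1 ≤ (y (place K)).t →
    ‖φ y a‖ ≤ C * Real.exp (-(κ * (y (place K)).t))
  fix_congr : ∀ (y : InfPts K) (a u : adelGrp K), (∀ v : HeightOneSpectrum (𝓞 K), ∃ A ∈ locGL v,
      (∀ i j, v.valuation K ((A.val - 1) i j) ≤ v.valuation K ((badProd bad : K) ^ M)) ∧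
        ProjGenLinGroup.mk A = u.1 v) → φ y (a * u) = φ y a
  fix_unip : ∀ v ∈ S', ∀ b : K,
    v.valuation K b ≤ v.valuation K (((badProd bad ^ M : ℕ) : K) / θ) →
      ∀ y a, φ y (a * atV v (nB b)) = φ y a
  cycle_inv : ∀ j, 2 * M ≤ j → ∀ γ ∈ CongruenceSubgroup.Gamma0 (badProd bad ^ j), ∀ z : ℍ,
    cyc hE (badProd bad ^ M) φ (γ • z) = cyc hE (badProd bad ^ M) φ z
  period_ne_zero : ∀ j, 2 * M ≤ j → ∀ [NeZero (badProd bad ^ j)],
    periodSum (badProd bad ^ j) (cyc hE (badProd bad ^ M) φ) ≠ 0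

omit hf hS hne hT in
include hE in
/-- **A flat vector with nonvanishing periods**: for a cuspidal eigenform of deep level whose
eigenvalues lift a Galois representation onto `GL₂(𝔽₃)`, some flat vector of the system has nonzero
periods along the hyperbolic plane, by the growth near `s = 1` of its series of coefficients. -/
theorem exists_period (L : IntermediateField ℚ Qbar) [FiniteDimensional ℚ L] [IsGalois ℚ L]
    {e : (L ≃ₐ[ℚ] L) →* GL3} {g : ℕ → GL3} {bad₀ : Finset ℕ}
    (h : IsGaloisTraces L e g bad₀ c)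
    (hf : IsGood S c f) (hne : f ≠ 0) :
    ∃ (bad : Finset ℕ) (S' : Finset (HeightOneSpectrum (𝓞 K))) (M : ℕ)
      (φ : InfPts K → adelGrp K → ℂ),
      bad₀ ⊆ bad ∧ S ⊆ S' ∧ 1 ≤ M ∧ 3 ∣ badProd bad ∧
      (∀ v, v ∈ S' ↔ (badProd bad : 𝓞 K) ∈ v.asIdeal) ∧ IsPeriodVector hE S' c bad M φ := by
  obtain ⟨bad, S', hsub0, hSS, h3, hmem, hT, hd⟩ :=
    exists_bad_traces (S := S) L h
  obtain ⟨M, hM, hflat⟩ := exists_flat (hf.mono hSS) hne
  obtain ⟨φ, hφ0, hφ, hφS⟩ := hflat M le_rfl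
  have hmem' : ∀ v, v ∈ S' ↔ (badProd bad : 𝓞 K) ∈ v.asIdeal := fun v => by
    refine ⟨fun hv => hT.badProd_mem hv, fun hv => (hmem v).2 ?_⟩
    rw [badProd, Nat.cast_prod] at hv
    obtain ⟨p, hp, hpv⟩ := (Ideal.IsPrime.prod_mem_iff (hp := v.isPrime)).1 hv
    exact ⟨p, (Finset.mem_filter.1 hp).1, (Finset.mem_filter.1 hp).2, hpv⟩
  have hdvd : ∀ j, 2 * M ≤ j → (badProd bad ^ M) ^ 2 ∣ badProd bad ^ j := fun j hj => by
    rw [← pow_mul]
    exact pow_dvd_pow _ (by omega)
  have hshift : ∀ v : HeightOneSpectrum (𝓞 K), v.valuation K (((badProd bad ^ M : ℕ) : K) / θ) =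
      v.valuation K (hE.shift (badProd bad ^ M) : K) := fun v => by
    rw [hE.shift_val (pow_ne_zero _ badProd_pos.ne')]
  refine ⟨bad, S', M, φ, hsub0, hSS, hM, dvd_badProd Nat.prime_three h3, hmem', hφ0, hφ,
    fun a => exists_decay hφ (place K) hE.eq_place a, fun y a u hu => ?_, fun v hv b hb y a => ?_,
    fun j hj γ hγ z => cycle_smul hE hM hφ hφS hT (Gamma0_dvd (hdvd j hj) hγ) z,
    fun j hj _ => periodSum_ne_zero hE hM hφ hφS hφ0 hT (hdvd j hj) hd⟩
  · refine right_inv_shift hE hM hφ hφS hT y a u fun v => ?_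
    obtain ⟨A, hA, h1, h2⟩ := hu v
    refine ⟨A, hA, fun i j => (h1 i j).trans ?_, h2⟩
    rw [← hshift, show ((badProd bad ^ M : ℕ) : K) = (badProd bad : K) ^ M by push_cast; rfl,
      map_div₀]
    refine le_div_iff₀ (zero_lt_iff.2 ((Valuation.ne_zero_iff _).2 hE.ne_zero)) |>.2 ?_
    exact mul_le_of_le_one_right' (hE.coe_thetaO ▸ v.valuation_le_one hE.thetaO)
  · rw [hshift] at hb
    exact (hφS v hv).fix _ (Whit.nB_mem_locKN (hb.trans ((shift_valuation hE hM hT v).2 hv))) y a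

end FermatAgent.LT2.Period
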