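import Fermat.Agent.LT2.Period.Bound
import Fermat.Agent.LT.Period.Euler
import Fermat.Agent.LT.Period.Cycle

/-!
# The restriction to the hyperbolic plane at deep level

For a form flat of depth `M`, the function on the plane shifted by `N / θ`, `N` the `M`-th power
of the product of the bad primes, is invariant under the modular matrices with lower entry divisible
by `N²` and decays at every cusp.
-/

set_option autoImplicit false

noncomputable section

open Matrix IsDedekindDomain NumberField Filter MeasureTheory WithZero UpperHalfPlane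
open FermatAgent.LT FermatAgent.LT.Whit
open scoped MatrixGroups Topology

namespace FermatAgent.LT2.Period

open FermatAgent.LT2.Whit (IsGood IsForm W locKN)
open FermatAgent.LT.Period (IsEis HasTraces badProd badProd_pos natU natU_pow ptR continuous_ptR
  place expo v_eq_exp_expo expo_mul expo_inv expo_zpow baseExp baseExp_mem baseExp_notMem
  apply_ptR_smul exists_decay_ptR)

variable {K : Type*} [Field K] [NumberField K] [IsTotallyComplex K] {θ : K}
  {S : Finset (HeightOneSpectrum (𝓞 K))} {c : HeightOneSpectrum (𝓞 K) → ℂ}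
  {f : InfPts K → adelGrp K → ℂ} {bad : Finset ℕ} {wt : ℕ → ℝ} {M : ℕ}

/-- The form on the plane shifted by `N / θ`. -/
def cyc (h : IsEis θ) (N : ℕ) (f : InfPts K → adelGrp K → ℂ) (z : ℍ) : ℂ :=
  f ((dG (h.shift N) : G2 K) • ptR z) 1

omit [IsTotallyComplex K] in
lemma exp_dep_lt (hM : 1 ≤ M) (v : HeightOneSpectrum (𝓞 K)) :
    exp (-(dep M v : ℤ)) < (1 : WithZero (Multiplicative ℤ)) := by
  rw [← exp_zero, exp_lt_exp]
  have := le_dep hM v
  omega

variable (hE : IsEis θ) (hM : 1 ≤ M) (hf : IsGood S c f) (hS : ∀ w ∈ S, IsFlat M w f)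
  (hT : HasTraces S c bad wt)

include hE hT in
/-- The exponents of the level. -/
lemma expo_level (v : HeightOneSpectrum (𝓞 K)) :
    expo (natU K (badProd bad ^ M)) v = -bExp S M v := by
  rw [natU_pow badProd_pos.ne', ← zpow_natCast, expo_zpow, Finsupp.smul_apply,
    hT.expo_badProd hE v, smul_eq_mul]
  by_cases hv : v ∈ S
  · rw [baseExp_mem hv, bExp_mem hv]; ring
  · rw [baseExp_notMem hv, bExp_notMem hv, hE.cnd_eq_zero fun h3 =>
      hv ((hT.mem_S v).2 ⟨3, hT.three, Nat.prime_three, by exact_mod_cast h3⟩)]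
    simp

include hE hM hT in
open Classical in
/-- The exponents of the shift are the depths. -/
lemma expo_shift (v : HeightOneSpectrum (𝓞 K)) :
    expo (hE.shift (badProd bad ^ M)) v = if v ∈ S then (dep M v : ℤ) else 0 := by
  rw [LT.Period.IsEis.shift, expo_mul, expo_inv, Finsupp.add_apply, Finsupp.neg_apply, ← hE.cnd_eq,
    expo_level hE hT v]
  by_cases hv : v ∈ S
  · rw [bExp_mem hv, if_pos hv, dep_cast hM]; ring
  · rw [bExp_notMem hv, if_neg hv]; ring

include hE hM hT in
/-- The shift is integral, and deep at the bad places. -/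
lemma shift_valuation (v : HeightOneSpectrum (𝓞 K)) :
    v.valuation K (hE.shift (badProd bad ^ M) : K) ≤ 1 ∧
      (v ∈ S → v.valuation K (hE.shift (badProd bad ^ M) : K) ≤ exp (-(dep M v : ℤ))) := by
  rw [v_eq_exp_expo, expo_shift hE hM hT]
  refine ⟨?_, fun hv => by rw [if_pos hv]⟩
  rw [← exp_zero, exp_le_exp]
  split_ifs <;> omega

include hE hM hf hS hT in
/-- A flat form is fixed by the elements congruent to the identity modulo `N / θ`, `N` the
`M`-th power of the product of the bad primes. -/
theorem right_inv_shift (y : InfPts K) (a u : adelGrp K)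
    (hu : ∀ v, ∃ A : GL (Fin 2) K, A ∈ locGL v ∧
      (∀ i j, v.valuation K ((A.val - 1) i j) ≤
        v.valuation K (hE.shift (badProd bad ^ M) : K)) ∧ ProjGenLinGroup.mk A = u.1 v) :
    f y (a * u) = f y a := by
  refine right_inv hf hS y a u (fun v hv => ?_) fun v _ => ?_
  · obtain ⟨A, hA, h1, h2⟩ := hu v
    exact ⟨A, ⟨hA, fun i j => (h1 i j).trans ((shift_valuation hE hM hT v).2 hv)⟩, h2⟩
  · obtain ⟨A, hA, -, h2⟩ := hu v
    exact ⟨A, hA, h2⟩

include hE hM hT in
/-- The lower entry divided by the shift is as small as the shift. -/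
private lemma valuation_div_shift {e : ℤ} (he : ((badProd bad ^ M : ℕ) : ℤ) ^ 2 ∣ e)
    (v : HeightOneSpectrum (𝓞 K)) :
    v.valuation K ((e : K) / hE.shift (badProd bad ^ M)) ≤ 1 ∧
      (v ∈ S → v.valuation K ((e : K) / hE.shift (badProd bad ^ M)) ≤
        exp (-(dep M v : ℤ))) := by
  obtain ⟨k, hk⟩ := he
  have hN0 : badProd bad ^ M ≠ 0 := pow_ne_zero _ badProd_pos.ne'
  have ht := shift_valuation hE hM hT v
  set N := badProd bad ^ M
  set t := hE.shift N
  have e' : (e : K) / t = (t : K) * algebraMap (𝓞 K) K (-3 * (k : 𝓞 K)) := by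
    have h1 : (t : K) = (N : K) / θ := hE.shift_val hN0
    have := hE.ne_zero
    have : (N : K) ≠ 0 := Nat.cast_ne_zero.2 hN0
    rw [h1, hk, map_mul, map_neg, map_intCast, map_ofNat]
    push_cast
    field_simp
    linear_combination (k : K) * hE.sq
  rw [e', map_mul]
  exact ⟨mul_le_one' ht.1 (v.valuation_le_one _),
    fun hv => (mul_le_of_le_one_right' (v.valuation_le_one _)).trans (ht.2 hv)⟩

include hE hM hf hS hT in
/-- Along the plane shifted by `N / θ` a flat form is invariant under the modular matrices with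
lower entry divisible by `N²`. -/
theorem cycle_smul {g : SL(2, ℤ)} (hg : ((badProd bad ^ M : ℕ) : ℤ) ^ 2 ∣ g.1 1 0) (z : ℍ) :
    cyc hE (badProd bad ^ M) f (g • z) = cyc hE (badProd bad ^ M) f z := by
  have ht := fun v => shift_valuation hE hM hT v
  have hlow := fun v => valuation_div_shift hE hM hT hg v
  refine apply_ptR_smul hf.form.glob_smul (fun w hw => (hS w hw).lay.unit)
    (fun v => locKN v (dep M v)) (fun y a u => right_inv hf hS y a u) (fun v => (ht v).1)
    (fun v => ⟨(hlow v).1, fun hv => ((hlow v).2 hv).trans_lt (exp_dep_lt hM v)⟩)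
    (fun v hv x y P hx hy hP => ⟨P, Whit.mem_locCN_of (hM.trans (le_dep hM v)) fun i j => ?_, rfl⟩)
    z
  rw [hP]
  fin_cases i <;> fin_cases j
  exacts [by simp, by simpa using hx.trans ((ht v).2 hv), by simpa using hy.trans ((hlow v).2 hv),
    by simp]

omit [IsTotallyComplex K] in
include hf in
/-- The restriction to the cycle is continuous. -/
lemma continuous_cycle (N : ℕ) : Continuous (cyc hE N f) :=
  (hf.form.cont 1).comp ((continuous_const_smul _).comp continuous_ptR)

include hE hf in
/-- Along a shifted plane the form decays at every cusp. -/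
theorem exists_cycle_decay (N : ℕ) : LT.Period.DecaysAtCusps (cyc hE N f) :=
  exists_decay_ptR hf.form.glob_smul hf.form.bdd (exists_decay hf (place K) hE.eq_place) _

end FermatAgent.LT2.Period
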