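import Fermat.Agent.LT2.Whit.Good
import Fermat.Agent.LT.Period.Values

/-!
# Vectors supported on one layer of the torus at deep level

At a place of the level a torus translation followed by two averages gives, from any nonzero
cuspidal eigenform, one whose Whittaker function along the torus there lives on a single layer.
-/

set_option autoImplicit false

noncomputable section

open Matrix IsDedekindDomain NumberField Filter MeasureTheory WithZero
open FermatAgent.LT FermatAgent.LT.Whit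
open scoped MatrixGroups

namespace FermatAgent.LT2.Period

open FermatAgent.LT2.Whit (IsForm W IsGood FixedAt locKN)

variable {L : Type*} [Field L] [NumberField L] [IsTotallyComplex L]
  {S : Finset (HeightOneSpectrum (𝓞 L))} {c : HeightOneSpectrum (𝓞 L) → ℂ}
  {f g : InfPts L → adelGrp L → ℂ} {v : HeightOneSpectrum (𝓞 L)} {e : ℤ}

/-- Representatives of the integers at a place modulo a power of it. -/
structure IsReps (v : HeightOneSpectrum (𝓞 L)) (n : ℕ) (R : Finset L) : Prop where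
  le_one : ∀ r ∈ R, v.valuation L r ≤ 1
  exists_mem : ∀ x, v.valuation L x ≤ 1 → ∃ r ∈ R, v.valuation L (x - r) ≤ exp (-(n : ℤ))
  unique : ∀ r ∈ R, ∀ r' ∈ R, v.valuation L (r - r') ≤ exp (-(n : ℤ)) → r = r'

section

omit [IsTotallyComplex L]

/-- Representatives modulo a power of a place exist. -/
theorem exists_reps (v : HeightOneSpectrum (𝓞 L)) (n : ℕ) : ∃ R, IsReps v n R := by
  classical
  induction n with
  | zero =>
    refine ⟨{0}, fun r hr => by simp [Finset.mem_singleton.1 hr], fun x hx => ⟨0, by simp, by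
      simpa using hx⟩, fun r hr r' hr' _ => ?_⟩
    rw [Finset.mem_singleton.1 hr, Finset.mem_singleton.1 hr']
  | succ n ih =>
    obtain ⟨R, hR⟩ := ih
    have hres := isResidues v
    set π : L := ((unifU v ^ (n : ℤ) : Lˣ) : L) with hπdef
    have hπ : v.valuation L π = exp (-(n : ℤ)) := v_unifU_zpow v n
    have hπ0 : π ≠ 0 := Units.ne_zero _
    refine ⟨(R ×ˢ residues v).image fun p => p.1 + π * p.2, fun r hr => ?_, fun x hx => ?_,
      fun r hr r' hr' h => ?_⟩
    · obtain ⟨⟨a, t⟩, hm, rfl⟩ := Finset.mem_image.1 hr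
      obtain ⟨ha, ht⟩ := Finset.mem_product.1 hm
      refine (Valuation.map_add _ _ _).trans (max_le (hR.le_one a ha) ?_)
      rw [map_mul, hπ]
      exact mul_le_one' (by rw [← exp_zero, exp_le_exp]; omega) (hres.le_one t ht)
    · obtain ⟨a, ha, hxa⟩ := hR.exists_mem x hx
      obtain ⟨t, ht, htz⟩ := hres.exists_mem ((x - a) / π) (by
        rw [map_div₀, hπ]
        exact div_le_one_of_le₀ hxa zero_le)
      refine ⟨a + π * t, Finset.mem_image.2 ⟨(a, t), Finset.mem_product.2 ⟨ha, ht⟩, rfl⟩, ?_⟩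
      rw [show x - (a + π * t) = π * ((x - a) / π - t) by field_simp; ring, map_mul, hπ]
      refine (mul_le_mul' le_rfl (val_le_exp_of_lt_one htz)).trans (le_of_eq ?_)
      rw [← exp_add]; push_cast; ring_nf
    · obtain ⟨⟨a, t⟩, hm, rfl⟩ := Finset.mem_image.1 hr
      obtain ⟨⟨a', t'⟩, hm', rfl⟩ := Finset.mem_image.1 hr'
      obtain ⟨ha, ht⟩ := Finset.mem_product.1 hm
      obtain ⟨ha', ht'⟩ := Finset.mem_product.1 hm'
      simp only at h ⊢
      have htt : v.valuation L (t - t') ≤ 1 :=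
        (Valuation.map_sub _ _ _).trans (max_le (hres.le_one t ht) (hres.le_one t' ht'))
      have e1 : a = a' := hR.unique a ha a' ha' (by
        rw [show a - a' = (a + π * t - (a' + π * t')) - π * (t - t') by ring]
        refine (Valuation.map_sub _ _ _).trans (max_le (h.trans ?_) ?_)
        · rw [exp_le_exp]; push_cast; omega
        · rw [map_mul, hπ]; exact mul_le_of_le_one_right' htt)
      subst e1
      have e2 : t = t' := hres.unique t ht t' ht' (by
        have h' : v.valuation L (π * (t - t')) ≤ exp (-((n + 1 : ℕ) : ℤ)) := by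
          rwa [show π * (t - t') = a + π * t - (a + π * t') by ring]
        rw [map_mul, hπ] at h'
        refine lt_of_le_of_lt ?_ (show (exp (-1 : ℤ) : WithZero (Multiplicative ℤ)) < 1 by
          rw [← exp_zero, exp_lt_exp]; norm_num)
        by_cases h0 : v.valuation L (t - t') = 0
        · rw [h0]; exact zero_le
        rw [← exp_log h0] at h' ⊢
        rw [← exp_add, exp_le_exp] at h'
        rw [exp_le_exp]
        push_cast at h'
        omega)
      rw [e2]

lemma IsReps.card_ne {n : ℕ} {R : Finset L} (hR : IsReps v n R) : (R.card : ℂ) ≠ 0 := by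
  obtain ⟨r, hr, -⟩ := hR.exists_mem 0 (by simp)
  exact Nat.cast_ne_zero.2 (Finset.card_pos.2 ⟨r, hr⟩).ne'

open Classical in
/-- The sum of the character at `x b` over representatives `b` modulo `v ^ n` is their number
if it is trivial on `x 𝓞`, and zero otherwise. -/
theorem IsReps.sum_psiV {n : ℕ} {R : Finset L} (hR : IsReps v n R) {x : L}
    (hx : v.valuation L x ≤ exp (cnd v + n)) :
    ∑ b ∈ R, psiV v (x * b) = if v.valuation L x ≤ exp (cnd v) then (R.card : ℂ) else 0 := by
  have hsmall : ∀ d : L, v.valuation L d ≤ exp (-(n : ℤ)) → psiV v (x * d) = 1 := fun d hd =>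
    psiV_eq_one (by
      rw [map_mul]
      refine (mul_le_mul' hx hd).trans (le_of_eq ?_)
      rw [← exp_add]; ring_nf)
  split_ifs with h
  · rw [Finset.sum_congr rfl (g := fun _ => (1 : ℂ)) fun b hb => psiV_eq_one (by
      rw [map_mul]; exact (mul_le_of_le_one_right' (hR.le_one b hb)).trans h)]
    simp
  · obtain ⟨b₀, hb₀, hne⟩ := exists_psiV_mul_ne_one (v := v) (x := x) (m := 0) (by
      rw [exp_zero, mul_one]
      have h0 : v.valuation L x ≠ 0 := fun h0 => h (by rw [h0]; exact zero_le)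
      rw [← exp_log h0] at h ⊢
      rw [exp_le_exp] at h ⊢
      omega)
    rw [exp_zero] at hb₀
    choose! σ hσ hσ' using fun b (hb : b ∈ R) => hR.exists_mem (b + b₀)
      ((Valuation.map_add _ _ _).trans (max_le (hR.le_one b hb) hb₀))
    have hinj : ∀ b ∈ R, ∀ b' ∈ R, σ b = σ b' → b = b' := fun b hb b' hb' e => by
      refine hR.unique b hb b' hb' ?_
      rw [show b - b' = (b + b₀ - σ b) - (b' + b₀ - σ b') by rw [e]; ring]
      exact (Valuation.map_sub _ _ _).trans (max_le (hσ' b hb) (hσ' b' hb'))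
    have himg : R.image σ = R := Finset.eq_of_subset_of_card_le
      (fun z hz => by obtain ⟨b, hb, rfl⟩ := Finset.mem_image.1 hz; exact hσ b hb)
      (by rw [Finset.card_image_of_injOn hinj])
    have hperm : ∑ b ∈ R, psiV v (x * b) = psiV v (x * b₀) * ∑ b ∈ R, psiV v (x * b) := by
      conv_lhs => rw [← himg, Finset.sum_image hinj]
      rw [Finset.mul_sum]
      refine Finset.sum_congr rfl fun b hb => ?_
      have := hsmall _ (hσ' b hb)
      calc psiV v (x * σ b)
          = psiV v (x * σ b) * psiV v (x * (b + b₀ - σ b)) := by rw [this, mul_one]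
        _ = psiV v (x * (b + b₀)) := by rw [← psiV_add]; ring_nf
        _ = _ := by rw [← psiV_add]; ring_nf
    have h' : (psiV v (x * b₀) - 1) * ∑ b ∈ R, psiV v (x * b) = 0 := by linear_combination -hperm
    exact (mul_eq_zero.1 h').resolve_left (sub_ne_zero.2 hne)

/-- Unit invariance and support on the layer of exponent `cnd + e`. -/
structure IsLayer (v : HeightOneSpectrum (𝓞 L)) (e : ℤ) (f : InfPts L → adelGrp L → ℂ) : Prop where
  unit : ∀ u : Lˣ, v.valuation L (u : L) = 1 → ∀ y a, f y (a * atV v (dG u)) = f y a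
  layer : ∀ y (a : adelGrp L) (α : Lˣ), a.1 v = dG α →
    v.valuation L (α : L) ≠ exp (cnd v + e) → W f y a = 0

lemma atV_mul_dG (v : HeightOneSpectrum (𝓞 L)) (α β : Lˣ) :
    atV v (dG α) * atV v (dG β) = atV v (dG (α * β)) := by rw [← map_mul, ← dG_mul]

end

lemma IsLayer.smul (hf : IsForm f) (h : IsLayer v e f) (r : ℂ) : IsLayer v e (r • f) :=
  ⟨fun u hu y a => by simp only [Pi.smul_apply, h.unit u hu],
    fun y a α ha hα => by rw [hf.W_smul, h.layer y a α ha hα, mul_zero]⟩

lemma IsLayer.rt (hf : IsForm f) (hl : IsLayer v e f) {h : adelGrp L} (hh : h.1 v = 1) :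
    IsLayer v e (Whit.rt h f) :=
  ⟨fun u hu y a => by
      show f y (a * atV v (dG u) * h) = f y (a * h)
      rw [mul_assoc, atV_mul_of_eq_one hh, ← mul_assoc, hl.unit u hu],
    fun y a α ha hα => by
      rw [hf.W_rt]
      exact hl.layer y _ α (by simp [ha, hh]) hα⟩

lemma IsLayer.sum {ι : Type*} (s : Finset ι) (F : ι → InfPts L → adelGrp L → ℂ)
    (hF : ∀ i ∈ s, IsForm (F i)) (h : ∀ i ∈ s, IsLayer v e (F i)) :
    IsLayer v e (∑ i ∈ s, F i) :=
  ⟨fun u hu y a => by
      simp only [Finset.sum_apply]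
      exact Finset.sum_congr rfl fun i hi => (h i hi).unit u hu y a,
    fun y a α ha hα => by
      rw [Whit.W_sum s F hF]
      exact Finset.sum_eq_zero fun i hi => (h i hi).layer y a α ha hα⟩

/-- A translation at `v` acting trivially on all Whittaker values over the torus at `v` fixes the
form. -/
theorem fix_of_W (hf : IsGood S c f) (hv : v ∈ S) (k : G2 L)
    (h : ∀ y (b : adelGrp L) (β : Lˣ), b.1 v = dG β → W f y (b * atV v k) = W f y b)
    (y : InfPts L) (a : adelGrp L) : f y (a * atV v k) = f y a := by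
  by_contra hne
  have hg := (hf.rt_atV hv k).sub hf
  obtain ⟨y', b, hb, hW⟩ := hg.exists_W_ne (fun e0 => hne (sub_eq_zero.1
    (congrFun (congrFun e0 y) a))) {v}
  obtain ⟨β, hβ⟩ := hb v (Finset.mem_singleton_self v)
  refine hW ?_
  rw [(hf.rt_atV hv k).form.W_sub hf.form, hf.form.W_rt, h y' b β hβ, sub_self]

/-- A layer form is fixed by the small translations. -/
theorem IsLayer.fix_nB (hf : IsGood S c f) (hv : v ∈ S) (h : IsLayer v e f) {x : L}
    (hx : v.valuation L x ≤ exp (-e)) (y : InfPts L) (a : adelGrp L) :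
    f y (a * atV v (nB x)) = f y a := by
  refine fix_of_W hf hv (nB x) (fun y b β hb => ?_) y a
  rw [hf.form.W_dG_mul_nB hb]
  by_cases hl : v.valuation L (β : L) = exp (cnd v + e)
  · rw [psiV_eq_one, one_mul]
    rw [map_mul, hl]
    refine (mul_le_mul' le_rfl hx).trans (le_of_eq ?_)
    rw [← exp_add]; ring_nf
  · rw [h.layer y b β hb hl, mul_zero]

/-- A torus translate of a cuspidal eigenform with a nonzero Whittaker value at the deepest
possible point of the torus. -/
private lemma exists_deep_translate (hf : IsGood S c f) (hne : f ≠ 0) (hv : v ∈ S) :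
    ∃ (f' : InfPts L → adelGrp L → ℂ) (m m' : ℕ) (α : Lˣ) (y₁ : InfPts L) (a₁ : adelGrp L),
      1 ≤ m ∧ m ≤ m' ∧ IsGood S c f' ∧ v.valuation L (α : L) = exp (cnd v + m) ∧
      a₁.1 v = dG α ∧ W f' y₁ a₁ ≠ 0 ∧
      (∀ x : L, v.valuation L x ≤ exp (-(m' : ℤ)) → ∀ y a,
        f' y (a * atV v (nB x)) = f' y a) ∧
      (∀ u : Lˣ, v.valuation L ((u : L) - 1) ≤ exp (-(m : ℤ)) → ∀ y a,
        f' y (a * atV v (dG u)) = f' y a) ∧
      ∀ (w : HeightOneSpectrum (𝓞 L)) (e' : ℤ), w ≠ v → IsLayer w e' f → IsLayer w e' f' := by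
  obtain ⟨m₀, hm₀⟩ := hf.exists_level
  set m : ℕ := m₀ + 1 with hm
  have hfix : ∀ k ∈ locKN v m, ∀ y a, f y (a * atV v k) = f y a := fun k hk y a =>
    hm₀ y a _ (atV_mem_levelGrp (Whit.locKN_le_deepLvl v (Whit.locKN_anti v (Nat.le_succ m₀) hk)))
  obtain ⟨y₁, b₁, hb₁, hW₁⟩ := hf.exists_W_ne hne {v}
  obtain ⟨α₀, hα₀⟩ := hb₁ v (Finset.mem_singleton_self v)
  have hα₀0 : v.valuation L (α₀ : L) ≠ 0 := (Valuation.ne_zero_iff _).2 α₀.ne_zero
  set j₀ := log (v.valuation L (α₀ : L))
  have hj₀ : j₀ ≤ cnd v + m := by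
    by_contra hlt
    refine hW₁ (hf.form.W_eq_zero_of_fix (k := -(m : ℤ)) (fun x hx y c =>
      hfix _ (Whit.nB_mem_locKN hx) y c) hα₀ ?_ y₁)
    rw [← exp_log hα₀0, ← exp_add, exp_le_exp]
    change cnd v + 1 ≤ j₀ + -(m : ℤ)
    omega
  obtain ⟨k, hk⟩ : ∃ k : ℕ, (k : ℤ) = cnd v + m - j₀ :=
    ⟨(cnd v + m - j₀).toNat, Int.toNat_of_nonneg (by omega)⟩
  set d : Lˣ := unifU v ^ (k : ℤ) with hd
  refine ⟨Whit.rt (atV v (dG d)) f, m, m + k, α₀ * d⁻¹, y₁, b₁ * atV v (dG d⁻¹), by omega,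
    by omega, hf.rt_atV hv _, ?_, by simp [hα₀, dG_mul], ?_, fun x hx y a => ?_,
    fun u hu y a => ?_, fun w e' hwv hl => hl.rt hf.form (atV_ne hwv _)⟩
  · rw [Units.val_mul, map_mul, Units.val_inv_eq_inv_val, map_inv₀, hd, v_unifU_zpow,
      ← exp_log hα₀0, ← WithZero.exp_neg, ← exp_add]
    congr 1
    change j₀ + - -(k : ℤ) = _
    omega
  · rw [hf.form.W_rt, mul_assoc, atV_mul_dG, inv_mul_cancel, dG_one, map_one, mul_one]
    exact hW₁
  · show f y (a * atV v (nB x) * atV v (dG d)) = f y (a * atV v (dG d))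
    have e1 : (nB x : G2 L) * dG d = dG d * nB ((d : L)⁻¹ * x) := by
      rw [dG_mul_nB, mul_inv_cancel_left₀ d.ne_zero]
    rw [mul_assoc, ← map_mul, e1, map_mul, ← mul_assoc, hfix _ (Whit.nB_mem_locKN ?_)]
    rw [map_mul, map_inv₀, hd, v_unifU_zpow, ← WithZero.exp_neg]
    refine (mul_le_mul' le_rfl hx).trans (le_of_eq ?_)
    rw [← exp_add]
    congr 1
    push_cast; omega
  · show f y (a * atV v (dG u) * atV v (dG d)) = f y (a * atV v (dG d))
    rw [mul_assoc, atV_mul_dG, mul_comm u d, ← atV_mul_dG, ← mul_assoc]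
    refine hfix _ ⟨dB u, Whit.mem_locCN_of (Nat.succ_pos m₀) fun i j => ?_, rfl⟩ _ _
    fin_cases i <;> fin_cases j <;> simp
    simpa [hm] using hu

open Classical in
/-- The twisted average over unipotent translates cuts out a neighbourhood of `α`. -/
private lemma W_twisted_average (hf : IsGood S c f) (hv : v ∈ S) {m m' : ℕ} (hmm : m ≤ m')
    {α : Lˣ} (hα : v.valuation L (α : L) = exp (cnd v + m))
    (hnB : ∀ x : L, v.valuation L x ≤ exp (-(m' : ℤ)) → ∀ y a, f y (a * atV v (nB x)) = f y a)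
    {R : Finset L} (hR : IsReps v m' R) (y : InfPts L) {b : adelGrp L} {β : Lˣ}
    (hb : b.1 v = dG β) :
    W (∑ r ∈ R, psiV v (-((α : L) * r)) • Whit.rt (atV v (nB r)) f) y b =
      (if v.valuation L ((β : L) - α) ≤ exp (cnd v) then (R.card : ℂ) else 0) * W f y b := by
  have e1 : W (∑ r ∈ R, psiV v (-((α : L) * r)) • Whit.rt (atV v (nB r)) f) y b =
      (∑ r ∈ R, psiV v (((β : L) - α) * r)) * W f y b := by
    rw [Whit.W_sum R _ (fun r _ => ((hf.rt_atV hv _).smul _).form), Finset.sum_mul]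
    refine Finset.sum_congr rfl fun r _ => ?_
    rw [(hf.rt_atV hv _).form.W_smul, hf.form.W_rt, hf.form.W_dG_mul_nB hb, ← mul_assoc,
      ← psiV_add]
    congr 2
    ring
  rw [e1]
  by_cases hz : W f y b = 0
  · rw [hz, mul_zero, mul_zero]
  rw [hR.sum_psiV]
  have hβ : v.valuation L (β : L) ≤ exp (cnd v + m') := by
    by_contra hlt
    refine hz (hf.form.W_eq_zero_of_fix (k := -(m' : ℤ)) hnB hb ?_ y)
    have h0 : v.valuation L (β : L) ≠ 0 := (Valuation.ne_zero_iff _).2 β.ne_zero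
    rw [← exp_log h0, exp_le_exp] at hlt
    rw [← exp_log h0, ← exp_add, exp_le_exp]
    omega
  refine (Valuation.map_sub _ _ _).trans (max_le hβ ?_)
  rw [hα, exp_le_exp]
  omega

omit [IsTotallyComplex L] in
/-- Moving a point of the torus off the layer keeps it away from `α`. -/
private lemma not_near_of_off_layer {m : ℕ} (hm : 1 ≤ m) {α β : L} {t : L}
    (hα : v.valuation L α = exp (cnd v + m)) (hβ : v.valuation L β ≠ exp (cnd v + m))
    (ht : v.valuation L t = 1) : ¬ v.valuation L (β * t - α) ≤ exp (cnd v) := by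
  intro hle
  have hne : v.valuation L (β * t) ≠ v.valuation L α := by
    rw [map_mul, ht, mul_one, hα]; exact hβ
  rw [sub_eq_add_neg, Valuation.map_add_of_distinct_val _ (by rwa [Valuation.map_neg]),
    Valuation.map_neg, hα] at hle
  have := (le_max_right _ _).trans hle
  rw [exp_le_exp] at this
  omega

omit [IsTotallyComplex L] in
/-- On the layer exactly one unit representative moves a point of the torus near `α`. -/
private lemma exists_unique_near {m : ℕ} (hm : 1 ≤ m) {R : Finset L} (hR : IsReps v m R)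
    {α β : Lˣ} (hα : v.valuation L (α : L) = exp (cnd v + m))
    (hβ : v.valuation L (β : L) = exp (cnd v + m)) :
    ∃ t₀ ∈ R, v.valuation L t₀ = 1 ∧
      v.valuation L (((β⁻¹ * α : Lˣ) : L)⁻¹ * t₀ - 1) ≤ exp (-(m : ℤ)) ∧
      ∀ t ∈ R, v.valuation L ((β : L) * t - α) ≤ exp (cnd v) ↔ t = t₀ := by
  set q : L := ((β⁻¹ * α : Lˣ) : L) with hqdef
  have hq0 : q ≠ 0 := Units.ne_zero _
  have hq : v.valuation L q = 1 := by
    rw [hqdef, Units.val_mul, map_mul, hα, Units.val_inv_eq_inv_val, map_inv₀, hβ,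
      inv_mul_cancel₀ exp_ne_zero]
  obtain ⟨t₀, ht₀, ht₀'⟩ := hR.exists_mem _ hq.le
  have hlt : v.valuation L (q - t₀) < 1 :=
    ht₀'.trans_lt (by rw [← exp_zero, exp_lt_exp]; omega)
  refine ⟨t₀, ht₀, ?_, ?_, fun t ht => ?_⟩
  · rw [show t₀ = q - (q - t₀) by ring, Valuation.map_sub_eq_of_lt_left _ (by rwa [hq]), hq]
  · rw [show q⁻¹ * t₀ - 1 = q⁻¹ * -(q - t₀) by field_simp; ring, map_mul, map_inv₀, hq, inv_one,
      one_mul, Valuation.map_neg]
    exact ht₀'
  rw [show (β : L) * t - α = (β : L) * (t - q) by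
    rw [mul_sub, hqdef, ← Units.val_mul, mul_inv_cancel_left], map_mul, hβ]
  constructor
  · intro hle
    refine hR.unique t ht t₀ ht₀ ?_
    rw [show t - t₀ = (t - q) + (q - t₀) by ring]
    refine (Valuation.map_add _ _ _).trans (max_le ?_ ht₀')
    by_cases h0 : v.valuation L (t - q) = 0
    · rw [h0]; exact zero_le
    rw [← exp_log h0, ← exp_add, exp_le_exp] at hle
    rw [← exp_log h0, exp_le_exp]
    omega
  · rintro rfl
    rw [Valuation.map_sub_swap]
    refine (mul_le_mul' le_rfl ht₀').trans (le_of_eq ?_)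
    rw [← exp_add]; ring_nf

/-- The two averages of a form with a nonzero value at the deepest possible point of the torus
live on one layer, and belong to every class closed under integral translations at the place and
linear combinations. -/
theorem exists_layer_of_deep (hf : IsGood S c f) (hv : v ∈ S) {m m' : ℕ} (hm : 1 ≤ m)
    (hmm : m ≤ m') {α : Lˣ} (hαv : v.valuation L (α : L) = exp (cnd v + m)) {y₁ : InfPts L}
    {a₁ : adelGrp L} (ha₁v : a₁.1 v = dG α) (hW' : W f y₁ a₁ ≠ 0)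
    (hnB : ∀ x : L, v.valuation L x ≤ exp (-(m' : ℤ)) → ∀ y a, f y (a * atV v (nB x)) = f y a)
    (htor : ∀ u : Lˣ, v.valuation L ((u : L) - 1) ≤ exp (-(m : ℤ)) → ∀ y a,
      f y (a * atV v (dG u)) = f y a) :
    ∃ g, g ≠ 0 ∧ IsGood S c g ∧ IsLayer v m g ∧ ∀ Q : (InfPts L → adelGrp L → ℂ) → Prop, Q f →
      (∀ h, ∀ k ∈ locK v, Q h → Q (Whit.rt (atV v k) h)) → (∀ h (r : ℂ), Q h → Q (r • h)) →
      (∀ (s : Finset L) (F : L → InfPts L → adelGrp L → ℂ), (∀ i ∈ s, Q (F i)) →
        Q (∑ i ∈ s, F i)) → Q g := by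
  classical
  -- the two averages
  obtain ⟨R, hR⟩ := exists_reps v m'
  obtain ⟨R₁, hR₁⟩ := exists_reps v m
  set U := R₁.filter fun t => v.valuation L t = 1 with hU
  let uu : L → Lˣ := fun t => if ht : t ≠ 0 then Units.mk0 t ht else 1
  have huu : ∀ t ∈ U, ((uu t : Lˣ) : L) = t := fun t ht => by
    have h0 : t ≠ 0 := fun e0 => by simp [hU, e0] at ht
    simp [uu, h0]
  set P : InfPts L → adelGrp L → ℂ :=
    ∑ b ∈ R, psiV v (-((α : L) * b)) • Whit.rt (atV v (nB b)) f with hP
  have hPmem : ∀ b ∈ R, IsGood S c (psiV v (-((α : L) * b)) • Whit.rt (atV v (nB b)) f) :=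
    fun b _ => (hf.rt_atV hv _).smul _
  have hPg : IsGood S c P := IsGood.sum R _ hPmem
  set g : InfPts L → adelGrp L → ℂ := ∑ t ∈ U, Whit.rt (atV v (dG (uu t))) P with hg
  have hgmem : ∀ t ∈ U, IsGood S c (Whit.rt (atV v (dG (uu t))) P) := fun t _ => hPg.rt_atV hv _
  have hgg : IsGood S c g := IsGood.sum U _ hgmem
  -- the Whittaker function of the averages along the torus
  have hWP : ∀ y (b : adelGrp L) (β : Lˣ), b.1 v = dG β → W P y b =
      (if v.valuation L ((β : L) - α) ≤ exp (cnd v) then (R.card : ℂ) else 0) * W f y b :=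
    fun y _ _ hb => W_twisted_average hf hv hmm hαv hnB hR y hb
  have hWsum : ∀ y (b : adelGrp L) (β : Lˣ), b.1 v = dG β → W g y b = ∑ t ∈ U,
      (if v.valuation L ((β : L) * t - α) ≤ exp (cnd v) then (R.card : ℂ) else 0) *
        W f y (b * atV v (dG (uu t))) := fun y b β hb => by
    rw [hg, Whit.W_sum U _ (fun t ht => (hgmem t ht).form)]
    refine Finset.sum_congr rfl fun t ht => ?_
    rw [hPg.form.W_rt, hWP y _ (β * uu t) (by simp [hb, dG_mul]), Units.val_mul, huu t ht]
  have hoff : ∀ y (b : adelGrp L) (β : Lˣ), b.1 v = dG β →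
      v.valuation L (β : L) ≠ exp (cnd v + m) → W g y b = 0 := by
    intro y b β hb hβ
    rw [hWsum y b β hb]
    refine Finset.sum_eq_zero fun t ht => ?_
    rw [if_neg (not_near_of_off_layer hm hαv hβ (Finset.mem_filter.1 ht).2), zero_mul]
  have hon : ∀ y (b : adelGrp L) (β : Lˣ), b.1 v = dG β →
      v.valuation L (β : L) = exp (cnd v + m) →
      W g y b = (R.card : ℂ) * W f y (b * atV v (dG (β⁻¹ * α))) := by
    intro y b β hb hβ
    obtain ⟨t₀, ht₀, ht₀v, ht₀', hiff⟩ := exists_unique_near hm hR₁ hαv hβ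
    have ht₀U : t₀ ∈ U := Finset.mem_filter.2 ⟨ht₀, ht₀v⟩
    rw [hWsum y b β hb, Finset.sum_eq_single_of_mem t₀ ht₀U fun t ht hne' => ?_]
    · rw [if_pos ((hiff t₀ ht₀).2 rfl)]
      congr 1
      have e2 : atV v (dG (uu t₀)) =
          atV v (dG (β⁻¹ * α)) * atV v (dG ((β⁻¹ * α)⁻¹ * uu t₀)) := by
        rw [atV_mul_dG, mul_inv_cancel_left]
      rw [e2, ← mul_assoc]
      refine hf.form.W_right (fun y c => htor _ ?_ y c) y _
      rwa [Units.val_mul, huu t₀ ht₀U, Units.val_inv_eq_inv_val]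
    · rw [if_neg fun h => hne' ((hiff t (Finset.mem_filter.1 ht).1).1 h), zero_mul]
  refine ⟨g, fun hg0 => ?_, hgg, ⟨fun u hu y a => fix_of_W hgg hv (dG u)
    (fun y b β hb => ?_) y a, hoff⟩, fun Q hQ hrt hsmul hsum => hsum U _ fun t ht =>
      hrt _ _ (dG_mem_locK (by rw [huu t ht]; exact (Finset.mem_filter.1 ht).2))
        (hsum R _ fun r hr => hsmul _ _ (hrt _ _ (nB_mem_locK (hR.le_one r hr)) hQ))⟩
  · have h := hon y₁ a₁ α ha₁v hαv
    rw [hg0, Whit.W_zero, inv_mul_cancel, dG_one, map_one, mul_one] at h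
    exact hW' ((mul_eq_zero.1 h.symm).resolve_left hR.card_ne)
  · have hbu : (b * atV v (dG u)).1 v = dG (β * u) := by simp [hb, dG_mul]
    have hval : v.valuation L ((β * u : Lˣ) : L) = v.valuation L (β : L) := by
      rw [Units.val_mul, map_mul, hu, mul_one]
    by_cases hl : v.valuation L (β : L) = exp (cnd v + m)
    · rw [hon y b β hb hl, hon y _ (β * u) hbu (hval.trans hl), mul_assoc b, atV_mul_dG]
      congr 5
      rw [_root_.mul_inv_rev, ← mul_assoc, mul_inv_cancel_left]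
    · rw [hoff y b β hb hl, hoff y _ (β * u) hbu (hval ▸ hl)]

/-- **Flatten one place**: a nonzero eigenform gives one on a single layer at `v`, keeping its
layers at the other places. -/
theorem exists_layer_step (hf : IsGood S c f) (hne : f ≠ 0) (hv : v ∈ S) :
    ∃ (g : InfPts L → adelGrp L → ℂ) (e : ℕ), 1 ≤ e ∧ g ≠ 0 ∧ IsGood S c g ∧ IsLayer v e g ∧
      ∀ (w : HeightOneSpectrum (𝓞 L)) (e' : ℤ), w ≠ v → IsLayer w e' f → IsLayer w e' g := by
  obtain ⟨f', m, m', α, y₁, a₁, hm, hmm, hf', hαv, ha₁v, hW', hnB, htor, hkeep⟩ :=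
    exists_deep_translate hf hne hv
  obtain ⟨g, hg0, hg, hlay, hQ⟩ :=
    exists_layer_of_deep hf' hv hm hmm hαv ha₁v hW' hnB htor
  exact ⟨g, m, hm, hg0, hg, hlay, fun w e' hwv hl => (hQ (fun h => IsForm h ∧ IsLayer w e' h)
    ⟨hf'.form, hkeep w e' hwv hl⟩ (fun h k _ h' => ⟨h'.1.rt _, h'.2.rt h'.1 (atV_ne hwv _)⟩)
    (fun h r h' => ⟨h'.1.smul r, h'.2.smul h'.1 r⟩)
    fun s F h' => ⟨IsForm.sum s F fun i hi => (h' i hi).1,
      IsLayer.sum s F (fun i hi => (h' i hi).1) fun i hi => (h' i hi).2⟩).2⟩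

end FermatAgent.LT2.Period
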