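import Fermat.Agent.LT2.Period.Profile
import Fermat.Agent.LT.Period.Bound

/-!
# A mean square bound for the eigenvalues at deep level

A flat eigenform is periodic for a lattice of translations at each point of the torus, so Bessel's
inequality on horospheres, against its positive profile, bounds the Dirichlet series of the squares
of its Hecke eigenvalues by `C / (s - 1)`.
-/

set_option autoImplicit false

noncomputable section

open Matrix IsDedekindDomain NumberField Filter MeasureTheory WithZero Module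
open FermatAgent.LT FermatAgent.LT.Whit
open scoped MatrixGroups Topology

namespace FermatAgent.LT2.Period

open FermatAgent.LT2.Whit (IsForm W IsGood IsPer)
open FermatAgent.LT.Period (IsEis place tor tor_apply ptY ptY_one ptY_apply Expo expo v_eq_exp_expo
  sqWeight absNorm_pos IsDual exists_sq_bound_of_profile)

variable {K : Type*} [Field K] [NumberField K] [IsTotallyComplex K] {θ : K}
  {S : Finset (HeightOneSpectrum (𝓞 K))} {c : HeightOneSpectrum (𝓞 K) → ℂ}
  {f : InfPts K → adelGrp K → ℂ} {M : ℕ}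

/-- A level period. -/
lemma isPer_one (hf : IsGood S c f) (hS : ∀ w ∈ S, IsFlat M w f) (d : K)
    (h1 : ∀ v ∈ S, v.valuation K d ≤ WithZero.exp (-(dep M v : ℤ)))
    (h2 : ∀ v ∉ S, v.valuation K d ≤ 1) : IsPer f (1 : adelGrp K) d := by
  intro β y
  conv_rhs => rw [← hf.form.glob_smul (nB (d * (β : K))) y 1, nB_smul]
  rw [mul_one, ← one_mul (glob (nB (d * (β : K))))]
  refine (right_inv hf hS _ 1 _ (fun v hv => ?_) fun v hv => ?_).symm
  · refine Whit.nB_mem_locKN ?_
    rw [map_mul]
    exact (mul_le_of_le_one_right' (v.valuation_le_one β)).trans (h1 v hv)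
  · refine nB_mem_locK ?_
    rw [map_mul]
    exact mul_le_one' (h2 v hv) (v.valuation_le_one β)

open Classical in
/-- A period with given exponents at the level. -/
lemma exists_level_period (h : IsEis θ) (hf : IsGood S c f) (hS : ∀ w ∈ S, IsFlat M w f) :
    ∃ d : Kˣ, (∀ v, expo d v = if v ∈ S then (dep M v : ℤ) else 0) ∧
      IsPer f (1 : adelGrp K) (d : K) := by
  obtain ⟨d, hd⟩ : ∃ d : Kˣ, ∀ v, expo d v = if v ∈ S then (dep M v : ℤ) else 0 :=
    ⟨h.gen (Finsupp.onFinset S (fun v => if v ∈ S then (dep M v : ℤ) else 0) fun v hv => by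
      by_contra hS'
      simp [hS'] at hv), fun v => by rw [h.expo_gen, Finsupp.onFinset_apply]⟩
  refine ⟨d, hd, isPer_one hf hS d (fun v hv => ?_) fun v hv => ?_⟩
  · rw [v_eq_exp_expo, hd, if_pos hv]
  · rw [v_eq_exp_expo, hd, if_neg hv, neg_zero, exp_zero]

variable (hE : IsEis θ) (hM : 1 ≤ M) (hf : IsGood S c f) (hS : ∀ w ∈ S, IsFlat M w f) (hne : f ≠ 0)

include hE hM hf hS hne in
open Classical in
/-- **The mean square bound at deep level**: for a flat eigenform the Dirichlet series of squared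
coefficients outside the level is `O(1 / (s - 1))`. -/
theorem exists_sq_bound : ∃ C : ℝ, 0 < C ∧ ∀ s : ℝ, 1 < s → s ≤ 2 →
    ∀ A : Finset (HeightOneSpectrum (𝓞 K) →₀ ℕ), (∀ m ∈ A, ∀ v ∈ S, m v = 0) →
      ∑ m ∈ A, sqWeight c s m ≤ C / (s - 1) := by
  obtain ⟨B, hB⟩ := hf.form.bdd
  obtain ⟨d, hd, hper⟩ := exists_level_period hE hf hS
  set W0 := W f baseY (tor (bExp S M)) with hW0
  have hW0p : 0 < ‖W0‖ := norm_pos_iff.2 (W_base_ne hM hf hS hne)
  set N0 := ‖(place K).embedding (hE.gen (bExp S M) : K)‖ with hN0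
  have hN0p : 0 < N0 := norm_pos_iff.2 (by simp)
  refine exists_sq_bound_of_profile hN0p hW0p (continuousOn_prof hE hf)
    (fun t ht => (prof_spec hE hM hf hS hne ht).1) (exists_prof_le hE hM hf hS hne) (B := B)
    fun A hA t ht => ?_
  let toZ : (HeightOneSpectrum (𝓞 K) →₀ ℕ) → Expo K :=
    fun m => m.mapRange (fun k : ℕ => (k : ℤ)) rfl
  let al : (HeightOneSpectrum (𝓞 K) →₀ ℕ) → Kˣ := fun m => hE.gen (bExp S M + toZ m)
  let L : (HeightOneSpectrum (𝓞 K) →₀ ℕ) → ℝ := fun m => ‖(place K).embedding (al m : K)‖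
  let P : (HeightOneSpectrum (𝓞 K) →₀ ℕ) → ℝ := fun m =>
    m.prod fun v k => (v.asIdeal.absNorm : ℝ) ^ k
  let Q : (HeightOneSpectrum (𝓞 K) →₀ ℕ) → ℝ := fun m =>
    m.prod fun v k => ‖heckeSeq (v.asIdeal.absNorm : ℂ) (c v) k‖ ^ 2
  have hLsq : ∀ m, L m ^ 2 = N0 ^ 2 * P m := fun m => by
    simp only [L, al, hN0, hE.norm_gen]
    rw [Finsupp.prod_add_index' (fun v => zpow_zero _)
      (fun v a b => zpow_add₀ (absNorm_pos v).ne' a b)]
    congr 1
    simp only [toZ, P]
    rw [Finsupp.prod_mapRange_index fun v => zpow_zero _]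
    simp only [zpow_natCast]
  have hL : ∀ m, 0 < L m := fun m => norm_pos_iff.2 (by simp)
  have hLe : ∀ m, N0 * √(P m) = L m := fun m => by
    rw [← Real.sqrt_sq (hL m).le, hLsq, Real.sqrt_mul (sq_nonneg _), Real.sqrt_sq hN0p.le]
  have hdual : ∀ m ∈ A, IsDual d (al m : K) := fun m hm => hE.isDual_of_expo fun v => by
    simp only [al, hE.expo_gen, Finsupp.add_apply, toZ, Finsupp.mapRange_apply, hd]
    by_cases hv : v ∈ S
    · rw [bExp_mem hv, hA m hm v hv, if_pos hv, dep_cast hM]
      simp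
      linarith
    · rw [bExp_notMem hv, if_neg hv]
      omega
  have hinj : Set.InjOn al A := fun m _ m' _ e => by
    have h := congrArg expo e
    simp only [al, hE.expo_gen, add_right_inj] at h
    ext v
    have h2 := DFunLike.congr_fun h v
    simpa [toZ] using h2
  have hcoef : ∀ m ∈ A, ‖coefFun S M c (expo (al m))‖ ^ 2 = Q m := fun m hm => by
    simp only [al, hE.expo_gen, coefFun, add_sub_cancel_left]
    rw [if_pos ⟨fun v hv => by simp [toZ, hA m hm v hv], fun v hv => by simp [toZ]⟩]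
    simp only [toZ, Q, Finsupp.prod_mapRange_index (h := fun v (k : ℤ) =>
      heckeSeq (v.asIdeal.absNorm : ℂ) (c v) k.toNat) (fun _ => rfl), Int.toNat_natCast]
    simp only [Finsupp.prod, norm_prod, Finset.prod_pow]
  show ∑ m ∈ A, Q m * (‖W0‖ ^ 2 * prof S M f (N0 * √(P m) * t) ^ 2) ≤ B ^ 2
  simp only [hLe]
  have h := sum_sq_W_le hf.form hB hper (ptY t) (A.image al) fun α hα => by
    obtain ⟨m, hm, rfl⟩ := Finset.mem_image.1 hα
    exact hdual m hm
  rw [Finset.sum_image hinj] at h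
  refine le_trans (le_of_eq (Finset.sum_congr rfl fun m hm => ?_)) h
  obtain ⟨hp, hpe⟩ := prof_spec hE hM hf hS hne (mul_pos (hL m) ht)
  rw [mul_one, hE.dG_smul_ptY _ ht, W_glob_dG hM hf hS, hpe, norm_mul, norm_mul, Complex.norm_real,
    Real.norm_eq_abs, abs_of_pos hp, mul_pow, mul_pow, hcoef m hm]

end FermatAgent.LT2.Period
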