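import Fermat.Agent.LT2.Period.Layer

/-!
# Flat vectors at deep level

A torus translation moves the layers of all the places of the level to prescribed ones, deep
enough that the principal congruence subgroups of the same depth fix the form.
-/

set_option autoImplicit false

noncomputable section

open Matrix IsDedekindDomain NumberField Filter MeasureTheory WithZero
open FermatAgent.LT FermatAgent.LT.Whit
open scoped MatrixGroups

namespace FermatAgent.LT2.Period

open FermatAgent.LT2.Whit (IsForm W IsGood FixedAt locKN deepLvl)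
open FermatAgent.LT.Theta.LocalChar (cond_nonneg)

variable {L : Type*} [Field L] [NumberField L] [IsTotallyComplex L]
  {S : Finset (HeightOneSpectrum (𝓞 L))} {c : HeightOneSpectrum (𝓞 L) → ℂ}
  {f g : InfPts L → adelGrp L → ℂ} {v : HeightOneSpectrum (𝓞 L)} {M : ℕ}

omit [IsTotallyComplex L] in
lemma cnd_nonneg (v : HeightOneSpectrum (𝓞 L)) : 0 ≤ cnd v := cond_nonneg v

/-- The depth at a place: the exponent of `N / θ` for `N` the `M`-th power of the bad primes. -/
def dep (M : ℕ) (v : HeightOneSpectrum (𝓞 L)) : ℕ := ((M : ℤ) * (cnd v + 1) - cnd v).toNat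

omit [IsTotallyComplex L] in
/-- The depth as an integer. -/
lemma dep_cast (hM : 1 ≤ M) (v : HeightOneSpectrum (𝓞 L)) :
    (dep M v : ℤ) = (M : ℤ) * (cnd v + 1) - cnd v := by
  have h := cnd_nonneg v
  have : (1 : ℤ) ≤ M := by exact_mod_cast hM
  rw [dep, Int.toNat_of_nonneg (by nlinarith)]

omit [IsTotallyComplex L] in
/-- The depth is at least the parameter. -/
lemma le_dep (hM : 1 ≤ M) (v : HeightOneSpectrum (𝓞 L)) : M ≤ dep M v := by
  have h := cnd_nonneg v
  have h2 := dep_cast hM v
  have : (1 : ℤ) ≤ M := by exact_mod_cast hM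
  have : (M : ℤ) ≤ dep M v := by nlinarith
  exact_mod_cast this

/-- On one layer at `v`, and fixed by the principal congruence subgroup of that depth. -/
structure IsFlat (M : ℕ) (v : HeightOneSpectrum (𝓞 L)) (f : InfPts L → adelGrp L → ℂ) : Prop where
  lay : IsLayer v (dep M v) f
  fix : FixedAt f v (locKN v (dep M v))

/-- Some eigenform of the system is supported on a single layer at every place of the level. -/
theorem exists_layered (hf : IsGood S c f) (hne : f ≠ 0) :
    ∃ (g : InfPts L → adelGrp L → ℂ) (e : HeightOneSpectrum (𝓞 L) → ℕ), g ≠ 0 ∧ IsGood S c g ∧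
      ∀ v ∈ S, IsLayer v (e v) g := by
  classical
  suffices key : ∀ R : Finset (HeightOneSpectrum (𝓞 L)), R ⊆ S →
      ∃ (g : InfPts L → adelGrp L → ℂ) (e : HeightOneSpectrum (𝓞 L) → ℕ), g ≠ 0 ∧ IsGood S c g ∧
        ∀ v ∈ R, IsLayer v (e v) g from key S subset_rfl
  intro R
  induction R using Finset.induction_on with
  | empty => exact fun _ => ⟨f, fun _ => 0, hne, hf, fun v hv => absurd hv (Finset.notMem_empty v)⟩
  | insert v R hvR ih =>
    intro hR
    obtain ⟨g, e, hg0, hg, hl⟩ := ih ((Finset.subset_insert v R).trans hR)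
    obtain ⟨g', m, -, hg'0, hg', hlv, hkeep⟩ :=
      exists_layer_step hg hg0 (hR (Finset.mem_insert_self v R))
    refine ⟨g', Function.update e v m, hg'0, hg', fun w hw => ?_⟩
    by_cases hwv : w = v
    · subst hwv
      rw [Function.update_self]
      exact hlv
    · rw [Function.update_of_ne hwv]
      exact hkeep w _ hwv (hl w ((Finset.mem_insert.1 hw).resolve_left hwv))

open Classical in
/-- **A flat vector**: for all large `M` some eigenform of the system is, at every place of the
level, on the layer of depth `dep M` and fixed by the congruence subgroup of that depth. -/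
theorem exists_flat (hf : IsGood S c f) (hne : f ≠ 0) :
    ∃ M₀ : ℕ, 1 ≤ M₀ ∧ ∀ M, M₀ ≤ M →
      ∃ g, g ≠ 0 ∧ IsGood S c g ∧ ∀ v ∈ S, IsFlat M v g := by
  obtain ⟨g, e, hg0, hg, hl⟩ := exists_layered hf hne
  obtain ⟨m, hm⟩ := hg.exists_level
  refine ⟨m + S.sup e + 1, by omega, fun M hM => ?_⟩
  have hM1 : 1 ≤ M := by omega
  let h : adelGrp L := ⟨fun w => if w ∈ S then dG (unifU w ^ ((dep M w : ℤ) - e w)) else 1,
    show ∀ᶠ w in cofinite, _ by
      filter_upwards [S.finite_toSet.compl_mem_cofinite] with w hw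
      rw [if_neg (by simpa using hw)]
      exact one_mem _⟩
  have hh : ∀ w ∉ S, h.1 w = 1 := fun w hw => if_neg hw
  have hhS : ∀ w ∈ S, h.1 w = dG (unifU w ^ ((dep M w : ℤ) - e w)) := fun w hw => if_pos hw
  set φ := Whit.rt h g with hφ
  have hφg : IsGood S c φ := hg.rt hh
  have hinv : h * h⁻¹ = 1 := mul_inv_cancel h
  refine ⟨φ, fun h0 => hg0 (funext fun y => funext fun a => ?_), hφg, fun v hv => ?_⟩
  · have := congrFun (congrFun h0 y) (a * h⁻¹)
    simpa [hφ] using this
  have hvS := hhS v hv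
  have hlay : IsLayer v (dep M v) φ := by
    refine ⟨fun u hu y a => ?_, fun y a α ha hα => ?_⟩
    · show g y (a * atV v (dG u) * h) = g y (a * h)
      have e1 : atV v (dG u) * h = h * atV v (dG u) := by
        rw [atV_mul_self, hvS, ← dG_inv, ← dG_mul, ← dG_mul, inv_mul_cancel_comm]
      rw [mul_assoc, e1, ← mul_assoc, (hl v hv).unit u hu]
    · rw [hφ, hg.form.W_rt]
      refine (hl v hv).layer y _ (α * unifU v ^ ((dep M v : ℤ) - e v))
        (by simp [ha, hvS, dG_mul]) ?_
      rw [Units.val_mul, map_mul, v_unifU_zpow]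
      intro heq
      refine hα ?_
      have h0 : v.valuation L (α : L) ≠ 0 := (Valuation.ne_zero_iff _).2 α.ne_zero
      rw [← exp_log h0, ← exp_add, exp_inj] at heq
      rw [← exp_log h0, exp_inj]
      omega
  refine ⟨hlay, ?_⟩
  rintro _ ⟨κ, hκ, rfl⟩ y a
  have hE : 1 ≤ dep M v := hM1.trans (le_dep hM1 v)
  have hmE : m ≤ dep M v := le_trans (by omega) (le_dep hM1 v)
  set E : ℤ := (dep M v : ℤ) with hEdef
  have hlt1 : ∀ i j, v.valuation L ((κ.val - 1) i j) < 1 := fun i j =>
    (hκ.2 i j).trans_lt (by rw [← exp_zero, exp_lt_exp]; omega)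
  have hD : v.valuation L (κ.val 1 1) = 1 := by
    rw [show κ.val 1 1 = 1 + (κ.val - 1) 1 1 by simp]
    exact (Valuation.map_add_eq_of_lt_left _ (by rw [map_one]; exact hlt1 1 1)).trans (map_one _)
  have hB : v.valuation L (κ.val 0 1) ≤ exp (-E) := by simpa using hκ.2 0 1
  set x := κ.val 0 1 / κ.val 1 1 with hxdef
  have hx : v.valuation L x ≤ exp (-E) := by rw [map_div₀, hD, div_one]; exact hB
  set κ' := (uB x)⁻¹ * κ with hκ'def
  have hκ' : κ' ∈ Whit.locCN v (dep M v) := by
    refine mul_mem (inv_mem ?_) hκ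
    refine Whit.mem_locCN_of (by omega) fun i j => ?_
    fin_cases i <;> fin_cases j <;> simp
    simpa using hx
  have h01 : κ'.val 0 1 = 0 := by
    have hD0 : κ.val 1 1 ≠ 0 := fun e0 => by simp [e0] at hD
    have e1 : κ.val 0 1 = κ'.val 0 1 + x * κ'.val 1 1 := by
      conv_lhs => rw [show κ = uB x * κ' from (mul_inv_cancel_left _ _).symm]
      simp [Matrix.mul_apply, Fin.sum_univ_two]
    have e2 : κ.val 1 1 = κ'.val 1 1 := by
      conv_lhs => rw [show κ = uB x * κ' from (mul_inv_cancel_left _ _).symm]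
      simp [Matrix.mul_apply, Fin.sum_univ_two]
    rw [← e2, hxdef, div_mul_cancel₀ _ hD0] at e1
    simpa using e1
  rw [show κ = uB x * κ' from (mul_inv_cancel_left _ _).symm, map_mul, map_mul, ← mul_assoc]
  refine Eq.trans ?_ (hlay.fix_nB hφg hv hx y a)
  show g y (_ * atV v (ProjGenLinGroup.mk κ') * h) = g y (a * atV v (nB x) * h)
  rw [mul_assoc _ (atV v (ProjGenLinGroup.mk κ')) h, atV_mul_self, ← mul_assoc]
  refine hm y _ _ (atV_mem_levelGrp (Whit.locKN_le_deepLvl v ?_))
  set d : Lˣ := unifU v ^ (E - e v) with hd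
  rw [hvS, ← dG_inv, dG, dG, ← map_mul, ← map_mul]
  refine Whit.locKN_anti v (le_trans (Nat.le_succ m) (le_rfl))
    ⟨_, Whit.mem_locCN_of (Nat.succ_pos m) fun i j => ?_, rfl⟩
  have hmE' : m + 1 ≤ dep M v := le_trans (by omega) (le_dep hM1 v)
  have hsmall : exp (-(dep M v : ℤ)) ≤ exp (-((m + 1 : ℕ) : ℤ)) := by rw [exp_le_exp]; omega
  have hdv : v.valuation L (d : L) ≤ 1 := by
    rw [hd, v_unifU_zpow, ← exp_zero, exp_le_exp]
    have := Finset.le_sup (f := e) hv
    have := le_dep hM1 v
    omega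
  have hd0 : (d : L) ≠ 0 := d.ne_zero
  have e3 : (dB d⁻¹ * κ' * dB d).val - 1 =
      !![κ'.val 0 0 - 1, 0; κ'.val 1 0 * d, κ'.val 1 1 - 1] := by
    rw [Units.val_mul, Units.val_mul]
    ext i j
    fin_cases i <;> fin_cases j <;>
      simp [Matrix.mul_apply, Matrix.vecMul, dotProduct, Fin.sum_univ_two, h01]
    field_simp
  rw [e3]
  fin_cases i <;> fin_cases j
  · exact (by simpa using hκ'.2 0 0 : v.valuation L (κ'.val 0 0 - 1) ≤ _).trans
      (by simpa using hsmall)
  · simp
  · show v.valuation L (κ'.val 1 0 * (d : L)) ≤ _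
    rw [map_mul]
    refine ((mul_le_of_le_one_right' hdv).trans ?_).trans (by simpa using hsmall)
    simpa using hκ'.2 1 0
  · exact (by simpa using hκ'.2 1 1 : v.valuation L (κ'.val 1 1 - 1) ≤ _).trans
      (by simpa using hsmall)

/-- A flat form is fixed by the congruence subgroup of the depths. -/
theorem right_inv (hf : IsGood S c f) (hS : ∀ v ∈ S, IsFlat M v f) (y : InfPts L) (a u : adelGrp L)
    (h1 : ∀ v ∈ S, u.1 v ∈ locKN v (dep M v)) (h2 : ∀ v ∉ S, u.1 v ∈ locK v) :
    f y (a * u) = f y a := by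
  classical
  obtain ⟨m, hm⟩ := hf.exists_level
  refine Whit.right_of_local (Φ := f y) S u (fun v hv b => (hS v hv).fix _ (h1 v hv) y b)
    (fun u' h1' h2' b => hm y b u' fun v => ?_) a
  by_cases hv : v ∈ S
  · rw [h1' v hv]; exact one_mem _
  · rw [Whit.deepLvl_loc_of_notMem hv, h2' v hv]; exact h2 v hv

end FermatAgent.LT2.Period
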