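import Fermat.Agent.LT2.Period.Slice
import Fermat.Agent.LT.Period.Profile

/-!
# The archimedean profile of a flat eigenform at deep level

Over the origin at height `t` the Whittaker function at the lowest exponents, relative to its value
at the base point, is real, positive, continuous and bounded by a decreasing exponential.
-/

set_option autoImplicit false

noncomputable section

open Matrix IsDedekindDomain NumberField Filter MeasureTheory Module
open FermatAgent.LT FermatAgent.LT.Whit
open scoped MatrixGroups Topology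

namespace FermatAgent.LT2.Period

open FermatAgent.LT2.Whit (IsForm W IsGood IsPer isWhit_archU)
open FermatAgent.LT.Period (IsEis place tor tor_apply ptY ptY_one ptY_apply)

variable {K : Type*} [Field K] [NumberField K] [IsTotallyComplex K] {θ : K}
  {S : Finset (HeightOneSpectrum (𝓞 K))} {c : HeightOneSpectrum (𝓞 K) → ℂ}
  {f : InfPts K → adelGrp K → ℂ} {M : ℕ}

/-- The profile: the real part of the Whittaker function at height `t` over the origin at the
lowest exponents, relative to its value at the base point. -/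
def prof (S : Finset (HeightOneSpectrum (𝓞 K))) (M : ℕ) (f : InfPts K → adelGrp K → ℂ)
    (t : ℝ) : ℝ :=
  (W f (ptY t) (tor (bExp S M)) / W f baseY (tor (bExp S M))).re

lemma archU_eq (h : IsEis θ) {t : ℝ} (ht : 0 < t) (a : adelGrp K) :
    Whit.archU f baseY (place K) a t = W f (ptY t) a / (t : ℂ) := by
  classical
  rw [Whit.archU, dif_pos ht]
  congr 2
  funext w
  rw [h.eq_place w, Function.update_self, ptY_apply ht]
  rfl

variable (hE : IsEis θ) (hM : 1 ≤ M) (hf : IsGood S c f) (hS : ∀ w ∈ S, IsFlat M w f) (hne : f ≠ 0)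

include hE hM hf hS hne in
/-- The profile is positive and describes the values. -/
lemma prof_spec {t : ℝ} (ht : 0 < t) :
    0 < prof S M f t ∧
      W f (ptY t) (tor (bExp S M)) = W f baseY (tor (bExp S M)) * (prof S M f t : ℂ) := by
  set a := tor (bExp S M)
  set u := Whit.archU f baseY (place K) a
  have hu : IsWhit (4 * Real.pi) u := isWhit_archU hf.form hf.radial baseY (place K) a
  have hc : 0 < 4 * Real.pi := by positivity
  have e1 : u 1 = W f baseY a := by
    simp only [u]; rw [archU_eq hE one_pos, ptY_one]; simp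
  have et : u t = W f (ptY t) a / (t : ℂ) := archU_eq hE ht a
  have h1 : u 1 ≠ 0 := by rw [e1]; exact W_base_ne hM hf hS hne
  have ht0 : u t ≠ 0 := hu.ne_zero hc one_pos ht h1
  have key : ∃ r : ℝ, 0 < r ∧ u t = u 1 * (r : ℂ) := by
    rcases le_total 1 t with hle | hle
    · obtain ⟨him, -, hlo⟩ := (hu.smul (u 1)⁻¹).bounds hc one_pos (inv_mul_cancel₀ h1) hle
      refine ⟨((u 1)⁻¹ * u t).re, (Real.exp_pos _).trans_le hlo, ?_⟩
      rw [show (((((u 1)⁻¹ * u t).re : ℝ)) : ℂ) = (u 1)⁻¹ * u t from
        Complex.ext (by simp) (by simp [him]), mul_inv_cancel_left₀ h1]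
    · obtain ⟨him, -, hlo⟩ := (hu.smul (u t)⁻¹).bounds hc ht (inv_mul_cancel₀ ht0) hle
      have hr := (Real.exp_pos _).trans_le hlo
      refine ⟨(((u t)⁻¹ * u 1).re)⁻¹, inv_pos.2 hr, ?_⟩
      rw [Complex.ofReal_inv, show (((((u t)⁻¹ * u 1).re : ℝ)) : ℂ) = (u t)⁻¹ * u 1 from
        Complex.ext (by simp) (by simp [him])]
      field_simp
  obtain ⟨r, hr, e⟩ := key
  have hW : W f (ptY t) a = W f baseY a * ((t * r : ℝ) : ℂ) := by
    rw [et, e1, div_eq_iff (by exact_mod_cast ht.ne')] at e
    rw [e]; push_cast; ring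
  have hp : prof S M f t = t * r := by
    rw [prof, hW, mul_div_cancel_left₀ _ (W_base_ne hM hf hS hne), Complex.ofReal_re]
  rw [hp]
  exact ⟨mul_pos ht hr, hW⟩

include hE hf in
/-- The profile is continuous. -/
lemma continuousOn_prof : ContinuousOn (prof S M f) (Set.Ioi 0) := by
  intro t (ht : 0 < t)
  obtain ⟨u1, u2, hu, -⟩ := isWhit_archU hf.form hf.radial baseY (place K) (tor (bExp S M))
  have h1 : ContinuousAt (fun x : ℝ => ((x : ℂ) * Whit.archU f baseY (place K) (tor (bExp S M)) x /
      W f baseY (tor (bExp S M))).re) t :=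
    Complex.continuous_re.continuousAt.comp
      (((Complex.continuous_ofReal.continuousAt).mul (hu t ht).1.continuousAt).div_const _)
  refine (h1.congr ?_).continuousWithinAt
  filter_upwards [Ioi_mem_nhds ht] with x hx
  rw [archU_eq hE hx, prof, mul_div_cancel₀ _ (by exact_mod_cast (Set.mem_Ioi.1 hx).ne')]

include hE hM hf hS hne in
/-- The profile decays exponentially. -/
lemma exists_prof_le : ∃ C : ℝ, ∀ t : ℝ, 0 < t → prof S M f t ≤
    C * Real.exp (-(2 * Real.pi * t)) := by
  obtain ⟨B, hB⟩ := hf.form.bdd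
  refine ⟨2 * B / ‖W f baseY (tor (bExp S M))‖, fun t ht => ?_⟩
  have h1 := norm_W_decay hf.form hf.radial hB (place K) (ptY t) (tor (bExp S M))
  obtain ⟨hp, he⟩ := prof_spec hE hM hf hS hne ht
  rw [ptY_apply ht, he, norm_mul, Complex.norm_real, Real.norm_eq_abs, abs_of_pos hp] at h1
  rw [div_mul_eq_mul_div, le_div_iff₀ (norm_pos_iff.2 (W_base_ne hM hf hS hne)), mul_comm]
  exact h1

end FermatAgent.LT2.Period
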