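import Fermat.Agent.LT2.Period.Values
import Fermat.Agent.LT.Period.Slice

/-!
# Fourier expansions on horospheres at deep level

The Fourier coefficients of a form on a horosphere are its Whittaker values at the dual points, so
Bessel's inequality bounds these and a cuspidal eigenform has an absolutely convergent expansion
which decays exponentially in the cusp.
-/

set_option autoImplicit false

noncomputable section

open Matrix IsDedekindDomain NumberField Filter MeasureTheory
open FermatAgent.LT FermatAgent.LT.Whit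
open FermatAgent.LT.Periodic (ivec)
open scoped MatrixGroups Topology

namespace FermatAgent.LT2.Period

open FermatAgent.LT2.Whit (IsForm W IsGood IsPer per constTerm isWhit_archU)
open FermatAgent.LT.Period (IsDual dualPt dualPt_spec dualPt_ne_zero eq_of_psiI_eq
  norm_le_of_isWhit sum_sq_dual_le exists_coef_decay hasSum_of_coef_bound
  exists_decay_of_coef_bound)

variable {L : Type*} [Field L] [NumberField L] [IsTotallyComplex L]
  {S : Finset (HeightOneSpectrum (𝓞 L))} {c : HeightOneSpectrum (𝓞 L) → ℂ}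
  {f : InfPts L → adelGrp L → ℂ}

lemma slice_periodic {a : adelGrp L} {d : Lˣ} (h : IsPer f a (d : L)) (y : InfPts L) :
    IsPeriodicZ (slice f d y a) := fun x n => by
  simp only [slice, map_add]
  rw [add_comm, transl_add, h.periodic_latA]

lemma slice_continuous (hf : IsForm f) (d : Lˣ) (y : InfPts L) (a : adelGrp L) :
    Continuous (slice f d y a) :=
  (hf.cont a).comp ((continuous_transl_right y).comp (latA d).continuous)

/-- The zeroth Fourier coefficient is the constant term. -/
lemma fourier_slice_zero (hf : IsForm f) {a : adelGrp L} {d : Lˣ} (h : IsPer f a (d : L))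
    (y : InfPts L) :
    ∫ x in cube (Idx L), chr (-(0 : Idx L → ℤ)) x * slice f d y a x = constTerm f y a := by
  rw [hf.constTerm_eq h]
  refine integral_congr_ae (Eventually.of_forall fun x => ?_)
  simp [chr, slice]

/-- The Whittaker function of a bounded eigenform is at most `2 B exp (-2π t)` in each
height. -/
theorem norm_W_decay (hf : IsForm f) (hr : IsRadial f) {B : ℝ} (hB : ∀ y a, ‖f y a‖ ≤ B)
    (w : InfinitePlace L) (y : InfPts L) (a : adelGrp L) :
    ‖W f y a‖ ≤ 2 * B * Real.exp (-(2 * Real.pi * (y w).t)) := by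
  classical
  exact norm_le_of_isWhit (fun y => LT2.Whit.IsForm.norm_W_le hB y a) (isWhit_archU hf hr y w a)

/-- The Fourier coefficient at a nonzero index is the Whittaker value at the dual point. -/
theorem coef_dual (hf : IsForm f) {a : adelGrp L} {d : Lˣ} (h : IsPer f a (d : L)) (y : InfPts L)
    {n : Idx L → ℤ} (hn : n ≠ 0) :
    ∫ x in cube (Idx L), chr (-n) x * slice f d y a x =
      W f ((dG (Units.mk0 _ (dualPt_ne_zero d hn)) : G2 L) • y)
        (glob (dG (Units.mk0 _ (dualPt_ne_zero d hn))) * a) := by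
  obtain ⟨α, h1, h2⟩ := hf.fourier_slice h y hn
  have hα : (α : L) = dualPt d n := eq_of_psiI_eq fun x => by
    obtain ⟨x, rfl⟩ := (latA d).surjective x
    rw [h1, dualPt_spec]
  rw [h2, show α = Units.mk0 _ (dualPt_ne_zero d hn) from Units.ext hα]

/-- Bessel's inequality over the dual lattice. -/
theorem sum_sq_W_le (hf : IsForm f) {B : ℝ} (hB : ∀ y a, ‖f y a‖ ≤ B) {a : adelGrp L} {d : Lˣ}
    (h : IsPer f a (d : L)) (y : InfPts L) (A : Finset Lˣ) (hA : ∀ α ∈ A, IsDual d (α : L)) :
    ∑ α ∈ A, ‖W f ((dG α : G2 L) • y) (glob (dG α) * a)‖ ^ 2 ≤ B ^ 2 :=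
  sum_sq_dual_le (slice_periodic h y) (slice_continuous hf d y a) (fun _ => hB _ _) d
    (V := fun α => W f ((dG α : G2 L) • y) (glob (dG α) * a)) (fun _ hn => coef_dual hf h y hn) A hA

/-- Coefficient bound and absolute convergence. -/
theorem exists_coef_bound (hf : IsGood S c f) {B : ℝ} (hB : ∀ y a, ‖f y a‖ ≤ B)
    (w₀ : InfinitePlace L) (hw : ∀ w, w = w₀) {a : adelGrp L} {d : Lˣ} (h : IsPer f a (d : L)) :
    ∃ κ : ℝ, 0 < κ ∧ ∀ (y : InfPts L) (n : Idx L → ℤ),
      ‖∫ x in cube (Idx L), chr (-n) x * slice f d y a x‖ ≤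
        if n = 0 then 0 else 2 * B * Real.exp (-(κ * (y w₀).t * ∑ j, |(n j : ℝ)|)) :=
  exists_coef_decay d w₀ hw ((norm_nonneg _).trans (hB (fun _ => H3.base) a))
    (fun y => by
      rw [fourier_slice_zero hf.form h, hf.form.constTerm_eq_zero_of_radial hf.radial])
    fun y n hn => by
      rw [coef_dual hf.form h y hn]; exact norm_W_decay hf.form hf.radial hB w₀ _ _

/-- The Fourier expansion on a horosphere. -/
theorem hasSum_expansion (hf : IsGood S c f) (w₀ : InfinitePlace L) (hw : ∀ w, w = w₀)
    {a : adelGrp L} {d : Lˣ} (h : IsPer f a (d : L)) (y : InfPts L) (x : Idx L → ℝ) :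
    Summable (fun n : Idx L → ℤ => ‖∫ v in cube (Idx L), chr (-n) v * slice f d y a v‖) ∧
    HasSum (fun n => (∫ v in cube (Idx L), chr (-n) v * slice f d y a v) * chr n x)
      (slice f d y a x) := by
  obtain ⟨B, hB⟩ := hf.form.bdd
  obtain ⟨κ, hκ, hb⟩ := exists_coef_bound hf hB w₀ hw h
  exact hasSum_of_coef_bound (slice_periodic h y) (slice_continuous hf.form d y a)
    (mul_nonneg two_pos.le ((norm_nonneg _).trans (hB y a))) (mul_pos hκ (y w₀).t_pos) (hb y) x

/-- A cuspidal eigenform decays exponentially in the height, uniformly on each translate. -/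
theorem exists_decay (hf : IsGood S c f) (w₀ : InfinitePlace L) (hw : ∀ w, w = w₀) (a : adelGrp L) :
    ∃ C κ : ℝ, 0 ≤ C ∧ 0 < κ ∧ ∀ y : InfPts L, 1 ≤ (y w₀).t →
      ‖f y a‖ ≤ C * Real.exp (-(κ * (y w₀).t)) := by
  obtain ⟨B, hB⟩ := hf.form.bdd
  obtain ⟨κ, hκ, hb⟩ := exists_coef_bound hf hB w₀ hw (hf.form.isPer_per a)
  simpa [slice] using exists_decay_of_coef_bound (slice_periodic (hf.form.isPer_per a))
    (slice_continuous hf.form _ · a)
    (mul_nonneg two_pos.le ((norm_nonneg _).trans (hB (fun _ => H3.base) a))) hκ hb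

end FermatAgent.LT2.Period
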