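import Fermat.Agent.LT2.Period.Cycle
import Fermat.Agent.LT.Period.Unfold

/-!
# The mean over a horizontal segment at deep level

Over the horizontal segment only the terms of the expansion at rational indices survive: the mean
is the series of coefficients along the rational numbers against the profile.
-/

set_option autoImplicit false

noncomputable section

open Matrix IsDedekindDomain NumberField Filter MeasureTheory WithZero UpperHalfPlane Set
open FermatAgent.LT FermatAgent.LT.Whit
open FermatAgent.LT.Periodic (ivec)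
open FermatAgent.LT.Theta.LocalChar (eRat eRat_eq_one eRat_intCast)
open scoped MatrixGroups Topology

namespace FermatAgent.LT2.Period

open FermatAgent.LT2.Whit (IsGood IsForm IsPer W constTerm)
open FermatAgent.LT.Period (IsEis HasTraces  IsFree coefN term badProd badProd_pos natU natU_val
  natU_one expo v_eq_exp_expo expo_mul expo_inv expo_intCast expo_natU_ne_zero expo_natU_nonneg
  coprime_notMem mem_over placesOver place ptR ptR_apply ptY ptY_one ptY_apply tor IsDual dualPt
  dualPt_ne_zero dualPt_coord isDual_dualPt exists_idx integral_exp_int_mul norm_emb_theta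
  trace_eq_one_place zeta hPt hPt_re_im strip lintegral_box integral_box exists_coords_one
  slice_segment exists_rat_idx expo_mk0_div norm_mk0_div_height hasSum_segment_mean)

variable {K : Type*} [Field K] [NumberField K] [IsTotallyComplex K] {θ : K}
  {S : Finset (HeightOneSpectrum (𝓞 K))} {c : HeightOneSpectrum (𝓞 K) → ℂ}
  {f : InfPts K → adelGrp K → ℂ} {bad : Finset ℕ} {wt : ℕ → ℝ} {M : ℕ}

variable (hE : IsEis θ) (hM : 1 ≤ M) (hf : IsGood S c f) (hS : ∀ w ∈ S, IsFlat M w f)
  (hT : HasTraces S c bad wt)

include hE hT in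
open Classical in
/-- Coefficients at rational exponents. -/
lemma coefFun_base_add {n : ℕ} (hn : n ≠ 0) :
    coefFun S M c (bExp S M + expo (natU K n)) = coefN c bad n := by
  by_cases hfree : IsFree bad n
  · have hoff : ∀ v ∈ S, expo (natU K n) v = 0 := fun v hv => by
      obtain ⟨p, hp, hpp, hpv⟩ := (hT.mem_S v).1 hv
      by_contra hne
      exact coprime_notMem ((Nat.Prime.coprime_iff_not_dvd hpp).2 (hfree.2 p hp hpp)) hpv
        ((expo_natU_ne_zero hn v).1 hne)
    rw [coefN, if_pos hfree, coefFun, if_pos ⟨fun v hv => by simp [hoff v hv], fun v _ => by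
      have := expo_natU_nonneg hn v
      simp
      omega⟩, add_sub_cancel_left]
  · rw [coefN, if_neg hfree, coefFun, if_neg]
    rintro ⟨h1, -⟩
    simp only [IsFree, not_and, not_forall, not_not] at hfree
    obtain ⟨p, hp, hpp, hpn⟩ := hfree hn
    obtain ⟨v, hv⟩ := hE.placesOver_nonempty hpp
    rw [mem_over hpp.ne_zero] at hv
    have hne : expo (natU K n) v ≠ 0 := by
      rw [expo_natU_ne_zero hn]
      obtain ⟨k, rfl⟩ := hpn
      rw [Nat.cast_mul]
      exact Ideal.mul_mem_right _ _ hv
    exact hne (by simpa using h1 v ((hT.mem_S v).2 ⟨p, hp, hpp, hv⟩))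

include hE hM hf hS hT in
/-- The mean over a horizontal segment of the shifted plane is the expansion along the rational
numbers with the profile. -/
theorem hasSum_cycle_mean (hne : f ≠ 0) {y : ℝ} (hy : 0 < y) :
    Summable (fun n : ℕ => ‖coefN c bad n‖ * |prof S M f ((n : ℝ) * (y / √3))|) ∧
    HasSum (fun n : ℕ => 2 * W f baseY (tor (bExp S M)) *
        (coefN c bad n * (prof S M f ((n : ℝ) * (y / √3)) : ℂ)))
      (∫ x in Ioc (0 : ℝ) 1, cyc hE (badProd bad ^ M) f (hPt x y)) := by
  set N := badProd bad ^ M with hNdef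
  have hN0 : N ≠ 0 := pow_ne_zero _ badProd_pos.ne'
  set t := hE.shift N
  have hper : IsPer f (1 : adelGrp K) (t : K) := isPer_one hf hS _
    (fun v hv => (shift_valuation hE hM hT v).2 hv) fun v _ => (shift_valuation hE hM hT v).1
  obtain ⟨e, he⟩ := exists_coords_one (K := K)
  obtain ⟨idx, hinj, hidx0, hidx, hiff⟩ := exists_rat_idx hE hN0 he
  set y0 : InfPts K := (dG t : G2 K) • ptY y with hy0
  set Cn : (Idx K → ℤ) → ℂ := fun n => ∫ v in cube (Idx K), chr (-n) v * slice f t y0 1 v
  have hexp := fun x => hasSum_expansion hf (place K) hE.eq_place hper y0 x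
  -- the coefficients
  set a : ℕ → ℂ := fun n => coefN c bad n * (prof S M f ((n : ℝ) * (y / √3)) : ℂ)
  have hcoef : ∀ k : ℤ, Cn (idx k) = W f baseY (tor (bExp S M)) * a k.natAbs := by
    intro k
    by_cases hk : k = 0
    · subst hk
      rw [hidx0]
      simp [Cn, a, fourier_slice_zero hf.form hper, hf.form.constTerm_eq_zero_of_radial hf.radial,
        coefN, IsFree]
    have hn : idx k ≠ 0 := fun h0 => hk (hinj (h0.trans hidx0.symm))
    have hkK : (k : K) / (N : K) ≠ 0 :=
      div_ne_zero (Int.cast_ne_zero.2 hk) (Nat.cast_ne_zero.2 hN0)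
    show (∫ v in cube (Idx K), chr (-idx k) v * slice f t y0 1 v) = _
    rw [coef_dual hf.form hper y0 hn,
      show Units.mk0 _ (dualPt_ne_zero t hn) = Units.mk0 _ hkK from Units.ext (hidx k), mul_one,
      hy0,
      hE.dG_smul_ptY _ hy, hE.dG_smul_ptY _ (mul_pos (norm_pos_iff.2 (by simp)) hy),
      W_glob_dG hM hf hS]
    have hk' : expo (Units.mk0 _ hkK) = bExp S M + expo (natU K k.natAbs) := by
      rw [expo_mk0_div hk hN0 hkK]
      ext v
      simp only [Finsupp.add_apply, Finsupp.neg_apply, hNdef, expo_level hE hT v]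
      ring
    rw [hk', coefFun_base_add hE hT (Int.natAbs_ne_zero.2 hk), norm_mk0_div_height hE hN0 hkK y,
      (prof_spec hE hM hf hS hne
        (mul_pos (Nat.cast_pos.2 (Int.natAbs_pos.2 hk)) (by positivity))).2]
    simp only [a]
    ring
  obtain ⟨h1, h2⟩ := hasSum_segment_mean (hexp 0).1 (G := fun x => cyc hE N f (hPt x y))
    (fun x => by
      rw [show cyc hE N f (hPt x y) = _ from slice_segment hE f N hy he x]
      exact (hexp (x • ivec e)).2) hinj hiff
    (W_base_ne hM hf hS hne) (a := a) (by simp [a, coefN, IsFree]) hcoef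
  exact ⟨by simpa [a, norm_mul, Complex.norm_real] using h1, h2⟩

end FermatAgent.LT2.Period
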