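import Fermat.Agent.LT2.Period.Flat

/-!
# Whittaker values of flat eigenforms at deep level

On the torus the Whittaker function of a flat eigenform depends only on the valuations and is its
value at the lowest exponents times a product of Hecke sequences; that value is nonzero for a
nonzero form.
-/

set_option autoImplicit false

noncomputable section

open Matrix IsDedekindDomain NumberField Filter MeasureTheory WithZero
open FermatAgent.LT FermatAgent.LT.Whit
open scoped MatrixGroups ContDiff

namespace FermatAgent.LT2.Period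

open FermatAgent.LT2.Whit (IsForm W IsGood FixedAt locKN deepLvl)
open FermatAgent.LT.Period (Expo tor tor_apply expo v_eq_exp_expo)

variable {L : Type*} [Field L] [NumberField L] [IsTotallyComplex L]
  {S : Finset (HeightOneSpectrum (𝓞 L))} {c : HeightOneSpectrum (𝓞 L) → ℂ}
  {f : InfPts L → adelGrp L → ℂ} {M : ℕ}

open Classical in
/-- The lowest exponents in the support. -/
def bExp (S : Finset (HeightOneSpectrum (𝓞 L))) (M : ℕ) : Expo L :=
  Finsupp.ofSupportFinite (fun v => if v ∈ S then -((M : ℤ) * (cnd v + 1)) else -cnd v)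
    ((((eventually_cofinite.1 (Theta.LocalChar.eventually_cond_eq_zero (L := L))).union
      S.finite_toSet)).subset fun v hv => by
        by_contra hc
        simp only [Set.mem_union, Set.mem_ofPred_eq, Finset.mem_coe, not_or, not_not] at hc
        simp [cnd, hc.1, hc.2] at hv)

omit [IsTotallyComplex L] in
/-- The exponent at a bad place. -/
lemma bExp_mem {v : HeightOneSpectrum (𝓞 L)} (hv : v ∈ S) :
    bExp S M v = -((M : ℤ) * (cnd v + 1)) := by
  rw [bExp, Finsupp.ofSupportFinite_coe, if_pos hv]

omit [IsTotallyComplex L] in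
/-- The exponent at a good place. -/
lemma bExp_notMem {v : HeightOneSpectrum (𝓞 L)} (hv : v ∉ S) : bExp S M v = -cnd v := by
  rw [bExp, Finsupp.ofSupportFinite_coe, if_neg hv]

/-- A flat eigenform has equal Whittaker values at torus elements with equal valuations. -/
theorem W_congr_units (hf : IsGood S c f) (hS : ∀ w ∈ S, IsFlat M w f) {a b : adelGrp L}
    (h : ∀ w, ∃ α β : Lˣ, a.1 w = dG α ∧ b.1 w = dG β ∧
      w.valuation L (α : L) = w.valuation L (β : L)) (y : InfPts L) :
    W f y a = W f y b := by
  refine Whit.eq_of_units (Φ := W f y) S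
    (fun v hv u hu d => hf.form.W_right (fun z e => (hS v hv).lay.unit _ hu z e) y d)
    (fun u h0 h1 d => hf.form.W_right
      (fun z e => right_inv hf hS z e u (fun w hw => ?_) h1) y d) h
  rw [h0 w hw]; exact one_mem _

open Classical in
/-- The finite part of the Whittaker function: supported on the layer at the level and the
product of the Hecke sequences elsewhere. -/
def coefFun (S : Finset (HeightOneSpectrum (𝓞 L))) (M : ℕ) (c : HeightOneSpectrum (𝓞 L) → ℂ)
    (n : Expo L) : ℂ :=
  if (∀ v ∈ S, n v = bExp S M v) ∧ ∀ v ∉ S, bExp S M v ≤ n v then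
    (n - bExp S M).prod fun v m => heckeSeq (v.asIdeal.absNorm : ℂ) (c v) m.toNat
  else 0

open Classical in
/-- On the torus the Whittaker function is its value at the lowest exponents times the finite
part. -/
theorem W_tor (hM : 1 ≤ M) (hf : IsGood S c f) (hS : ∀ w ∈ S, IsFlat M w f) (n : Expo L)
    (y : InfPts L) :
    W f y (tor n) = coefFun S M c n * W f y (tor (bExp S M)) := by
  unfold coefFun
  split_ifs with hn
  swap
  · rw [zero_mul]
    rcases not_and_or.1 hn with h | h <;> push Not at h <;> obtain ⟨v, hv, hne⟩ := h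
    · refine (hS v hv).lay.layer y _ _ (tor_apply n v) ?_
      rw [v_unifU_zpow, Ne, exp_inj]
      rw [bExp_mem hv] at hne
      rw [dep_cast hM]
      omega
    · refine hf.form.W_eq_zero_of_lt' (hf.fixed v hv) (tor_apply n v) ?_ y
      rw [v_unifU_zpow, exp_le_exp]
      rw [bExp_notMem hv] at hne
      omega
  suffices key : ∀ (F : Finset (HeightOneSpectrum (𝓞 L))) (m : Expo L),
      (∀ v ∈ S, m v = bExp S M v) → (∀ v ∉ S, bExp S M v ≤ m v) →
      (m - bExp S M).support = F →
      W f y (tor m) =
        (m - bExp S M).prod (fun v k => heckeSeq (v.asIdeal.absNorm : ℂ) (c v) k.toNat) *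
        W f y (tor (bExp S M)) from key _ n hn.1 hn.2 rfl
  intro F
  induction F using Finset.induction_on with
  | empty =>
    intro m _ _ hm
    rw [Finsupp.support_eq_empty, sub_eq_zero] at hm
    simp [hm]
  | insert v F hvF ih =>
    intro m h1 h2 hm
    have hvm : v ∈ (m - bExp S M).support := by rw [hm]; exact Finset.mem_insert_self v F
    have hvS : v ∉ S := fun h => by simp [h1 v h] at hvm
    set m' := m.update v (bExp S M v)
    have hm'v : m' v = bExp S M v := by simp [m']
    have hm'w : ∀ w ≠ v, m' w = m w := fun w hw => by simp [m', hw]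
    have hsupp : (m' - bExp S M).support = F := by
      ext w
      by_cases hw : w = v
      · subst hw; simp [hm'v, hvF]
      · have hh : w ∈ (m - bExp S M).support ↔ w ∈ F := by rw [hm]; simp [hw]
        simpa [hm'w w hw] using hh
    have hk := ih m' (fun w hw => by rw [hm'w w fun e => hvS (e ▸ hw)]; exact h1 w hw)
      (fun w hw => by
        by_cases hwv : w = v
        · subst hwv; rw [hm'v]
        · rw [hm'w w hwv]; exact h2 w hw) hsupp
    set a := tor m' * atV v (dG (unifU v ^ (bExp S M v)))⁻¹
    have ha : a.1 v = 1 := by simp [a, hm'v]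
    have e : ∀ k : ℤ, (a * atV v (dG (unifU v ^ k))).1 v = dG (unifU v ^ k) := fun k => by simp [ha]
    obtain ⟨j, hj⟩ : ∃ j : ℕ, m v = (j : ℤ) + bExp S M v :=
      ⟨(m v - bExp S M v).toNat, by have := h2 v hvS; omega⟩
    have e1 : tor m = a * atV v (dG (unifU v ^ ((j : ℤ) - cnd v))) := by
      refine Subtype.ext (funext fun w => ?_)
      by_cases hw : w = v
      · subst hw; rw [e, tor_apply, hj, bExp_notMem hvS, sub_eq_add_neg]
      · simp [a, atV_ne hw, hm'w w hw]
    have e2 : tor m' = a * atV v (dG (unifU v ^ (-cnd v))) := by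
      refine Subtype.ext (funext fun w => ?_)
      by_cases hw : w = v
      · subst hw; rw [e, tor_apply, hm'v, bExp_notMem hvS]
      · simp [a, atV_ne hw]
    rw [e1, hf.form.W_recursion' (v := v) (hf.fixed v hvS) (hf.eigen v hvS) ha, ← e2,
      hk, ← mul_assoc]
    congr 1
    rw [Finsupp.prod, hsupp, Finsupp.prod, hm, Finset.prod_insert hvF]
    congr 1
    · simp [hj]
    · refine Finset.prod_congr rfl fun w hw => ?_
      rw [Finsupp.sub_apply, Finsupp.sub_apply, hm'w w fun e => hvF (e ▸ hw)]

/-- Along the global torus the Whittaker function is its value at the lowest exponents times the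
finite part. -/
theorem W_glob_dG (hM : 1 ≤ M) (hf : IsGood S c f) (hS : ∀ w ∈ S, IsFlat M w f) (ξ : Lˣ)
    (y : InfPts L) :
    W f y (glob (dG ξ)) = coefFun S M c (expo ξ) * W f y (tor (bExp S M)) := by
  rw [← W_tor hM hf hS]
  refine W_congr_units hf hS (fun w => ⟨ξ, unifU w ^ expo ξ w, rfl, rfl, ?_⟩) y
  rw [v_eq_exp_expo, v_unifU_zpow]

open Classical in
/-- A nonzero flat eigenform has a nonzero value at the base point. -/
theorem W_base_ne (hM : 1 ≤ M) (hf : IsGood S c f) (hS : ∀ w ∈ S, IsFlat M w f) (hne : f ≠ 0) :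
    W f baseY (tor (bExp S M)) ≠ 0 := by
  intro h0
  refine hne (hf.form.eq_zero_of_pts hf.radial S hf.fixed c hf.eigen fun a ha => ?_)
  obtain ⟨ha1, ha2⟩ := ha
  choose! α hα using ha1
  let m : Expo L := Finsupp.onFinset (S ∪ (bExp S M).support)
    (fun w => if w ∈ S then -log (w.valuation L (α w : L)) else bExp S M w) fun w hw => by
      by_cases h : w ∈ S
      · exact Finset.mem_union_left _ h
      · rw [if_neg h] at hw
        exact Finset.mem_union_right _ (Finsupp.mem_support_iff.2 hw)
  rw [W_congr_units hf hS (b := tor m) (fun w => ?_) baseY, W_tor hM hf hS, h0, mul_zero]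
  by_cases hw : w ∈ S
  · exact ⟨α w, _, hα w hw, tor_apply m w, by
      rw [v_unifU_zpow, show m w = -log (w.valuation L (α w : L)) by simp [m, hw], neg_neg,
        exp_log ((Valuation.ne_zero_iff _).2 (α w).ne_zero)]⟩
  · exact ⟨unifU w ^ (-cnd w), _, ha2 w hw, tor_apply m w, by
      rw [show m w = -cnd w by simp [m, hw, bExp_notMem hw]]⟩

end FermatAgent.LT2.Period
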